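import Fermat.Agent.Lowering.P3.Cover.Spaces

/-!
# A cover is a two sheet glued at the zeros of its branch function
-/

set_option autoImplicit false
set_option linter.style.haveILetI false
set_option linter.unusedSectionVars false
set_option synthInstance.maxHeartbeats 400000
set_option maxHeartbeats 800000

noncomputable section

namespace FLTAgent.Lowering.P3

open AlgebraicCurve FLTAgent.Curves FLTAgent.Specialization FLTAgent.BadRed Polynomial
  IntermediateField

variable {L k : Type} [Field L] [Field k] [IsAlgClosed L] [IsAlgClosed k] {A : ValuationSubring L}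
  {π : A →+* k} {FC F₀ Ω : Type} [Field FC] [Field F₀] [Field Ω] [Algebra L FC] [Algebra L F₀]
  [Algebra k Ω] [IsFunctionField L FC] [IsFunctionField L F₀] {Fb : IntermediateField k Ω}
  [IsFunctionField k Fb] {q : ℕ} {S : Sheet π FC Fb F₀ q} {N : S.Nodes} {F : Type} [Field F]
  [Algebra L F] [Algebra F₀ F] [IsScalarTower L F₀ F] [IsFunctionField L F]

namespace Cover

variable (C : Cover S N F)

theorem sum_mem₁ {M : ℕ} {b : Fin C.m → Fb} (h : ∀ i : Fin C.m, b i ∈ C.sp₁ i M) :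
    (∑ i : Fin C.m, C.wMap C.gen i (b i)) ∈
      riemannRochSpace ((M : ℤ) • poleDiv k (algebraMap Fb C.resField S.MC.xb)) :=
  C.radGen.sum_mem h

theorem sum_mem₂ {M : ℕ} {b : Fin C.m → Fb} (h : ∀ i : Fin C.m, b i ∈ C.sp₂ i M) :
    (∑ i : Fin C.m, C.wMap C.theta i (b i)) ∈
      riemannRochSpace ((M : ℤ) • poleDiv k (algebraMap Fb C.resField (S.MC.xb ^ q))) :=
  C.radGen₂.sum_mem h

theorem sum_memF {M : ℕ} {a : Fin C.m → F₀} (h : ∀ i : Fin C.m, a i ∈ C.spF i M) :
    (∑ i : Fin C.m, C.vMap i (a i)) ∈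
      riemannRochSpace ((M : ℤ) • poleDiv L (algebraMap F₀ F S.X)) :=
  haveI := C.finiteDimensional_cover
  C.radGenF.sum_mem h

theorem comp_memF {M : ℕ} {a : Fin C.m → F₀} (h : (∑ i : Fin C.m, C.vMap i (a i)) ∈
    riemannRochSpace ((M : ℤ) • poleDiv L (algebraMap F₀ F S.X))) (i : Fin C.m) :
    a i ∈ C.spF i M :=
  haveI := C.finiteDimensional_cover
  C.radGenF.comp_mem C.m_ne_L h i

/-- The two sheet of a cover. -/
def twoSheet : TwoSheet π F C.resField where
  R₁ := C.red₁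
  R₂ := C.red₂
  surj := S.MC.surj
  X := algebraMap F₀ F S.X
  xb₁ := algebraMap Fb C.resField S.MC.xb
  xb₂ := algebraMap Fb C.resField (S.MC.xb ^ q)
  transcendental_X := (transcendental_algebraMap_iff (algebraMap F₀ F).injective).2 S.transcendental_X
  transcendental₁ :=
    (transcendental_algebraMap_iff (algebraMap Fb C.resField).injective).2 S.MC.transcendental
  transcendental₂ := (transcendental_algebraMap_iff (algebraMap Fb C.resField).injective).2
    (S.MC.transcendental.pow (lt_trans Nat.zero_lt_one S.one_lt))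
  X₁ := C.red₁_res.2 (C.ext₁ _ _ S.pair_X.1)
  X₂ := C.red₂_res.2 (C.ext₂ _ _ (by simpa using S.pair_X.2))
  orth d hd := C.pair_orth hd
  scaled₁ := C.red₁_scaled
  scaled₂ := C.red₂_scaled
  res_mem_poles M f g hf hg := by
    obtain ⟨a, rfl⟩ := C.exists_coordF f
    obtain ⟨b, hb, rfl⟩ := C.pair_comp_res one_ne_zero hg
    have h : ∀ i : Fin C.m, (b i).1 ∈ C.sp₁ i M ∧ (b i).2 ∈ C.sp₂ i M := fun i =>
      C.res_mem_space (C.comp_memF hf i) (by simpa using hb i)
    simp only [wPair_apply, Prod.fst_sum, Prod.snd_sum]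
    exact ⟨C.sum_mem₁ fun i => (h i).1, C.sum_mem₂ fun i => (h i).2⟩
  arch := S.arch
  exists_nonunit := S.exists_nonunit

theorem space_zero {K : Type} [Field K] [IsAlgClosed K] {G : Type} [Field G] [Algebra K G]
    [IsFunctionField K G] {x u : G} {m M : ℕ} (hm : 0 < m) (hu : u ≠ 0) {b : G} :
    b ∈ Rad.space (K := K) x u m 0 M ↔ b ∈ riemannRochSpace ((M : ℤ) • poleDiv K x) := by
  rw [Rad.mem_space hm hu, pow_zero, mul_one, Rad.poles_of_pow hm]

theorem integral_pow_iff {z : C.resField} :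
    IntegralWrt k (algebraMap Fb C.resField (S.MC.xb ^ q)) z ↔
      IntegralWrt k (algebraMap Fb C.resField S.MC.xb) z := by
  have hq : (0 : ℤ) < q := by have := S.one_lt; omega
  refine forall_congr' fun v => ?_
  rw [map_pow, ord_pow]
  exact ⟨fun h hv => h (mul_nonneg hq.le hv),
    fun h hv => h ((mul_nonneg_iff_of_pos_left hq).1 hv)⟩

theorem comp_regular {z : C.resField}
    (hz : IntegralWrt k (algebraMap Fb C.resField S.MC.xb) z) :
    ∃ b : Fin C.m → Fb, (∀ i, b i ∈ S.regular) ∧ z = ∑ i : Fin C.m, C.wMap C.gen i (b i) := by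
  obtain ⟨M, hM⟩ := exists_mem_poles hz
  obtain ⟨b, rfl⟩ := C.exists_coord₁ z
  refine ⟨b, fun i v hv => ?_, rfl⟩
  have h := (Rad.mem_space C.pos C.ub_ne).1 (C.radGen.comp_mem C.m_ne hM i)
  have hr := (mem_rrSpace_poles.1 h).1 v hv
  rcases eq_or_ne (b i) 0 with h0 | h0
  · rw [h0]; exact ordGE_zero _ _
  have h1 := hr.le_ord (mul_ne_zero (pow_ne_zero _ h0) (pow_ne_zero _ C.ub_ne))
  change 0 ≤ v.ord (b i ^ C.m * C.ub ^ (i : ℕ)) at h1
  rw [v.ord_mul (pow_ne_zero _ h0) (pow_ne_zero _ C.ub_ne), ord_pow, ord_pow] at h1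
  have hu : v.ord C.ub ≤ 1 ∧ 0 ≤ v.ord C.ub := by
    by_cases hne : v.ord C.ub = 0
    · omega
    · have := C.simple v hv hne; omega
  have hi : ((i : ℕ) : ℤ) < C.m := by exact_mod_cast i.2
  refine ordGE_of_le ?_
  by_contra hc
  have h2 : ((i : ℕ) : ℤ) * v.ord C.ub ≤ (i : ℕ) :=
    mul_le_of_le_one_right (Int.natCast_nonneg _) hu.1
  nlinarith

theorem coord0_mul {b b' : Fin C.m → Fb} (hb : ∀ i, b i ∈ S.regular)
    (hb' : ∀ i, b' i ∈ S.regular) :
    ∃ r ∈ S.regular, C.coord0 ((∑ i : Fin C.m, C.wMap C.gen i (b i)) *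
      ∑ i : Fin C.m, C.wMap C.gen i (b' i)) = b ⟨0, C.pos⟩ * b' ⟨0, C.pos⟩ + C.ub * r := by
  classical
  refine ⟨∑ i : Fin C.m, ∑ j : Fin C.m, if (i : ℕ) + j = C.m then b i * b' j else 0,
    sum_mem fun i _ => sum_mem fun j _ => ?_, ?_⟩
  · split
    exacts [mul_mem (hb i) (hb' j), zero_mem _]
  have key : ∀ i j : Fin C.m, C.coord0 (C.wMap C.gen i (b i) * C.wMap C.gen j (b' j)) =
      (if (i : ℕ) + j = 0 then b i * b' j else 0) +
        C.ub * if (i : ℕ) + j = C.m then b i * b' j else 0 := by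
    intro i j
    have e : C.wMap C.gen i (b i) * C.wMap C.gen j (b' j) =
        C.wMap C.gen ((i : ℕ) + j) (b i * b' j) := by
      rw [wMap_apply, wMap_apply, wMap_apply, map_mul, pow_add]; ring
    rw [e]
    have hi := i.2
    have hj := j.2
    by_cases hlt : (i : ℕ) + j < C.m
    · rw [C.coord0_wMap_gen hlt, if_neg hlt.ne, mul_zero, add_zero]
    · have e' : C.wMap C.gen ((i : ℕ) + j) (b i * b' j) =
          C.wMap C.gen ((i : ℕ) + j - C.m) (b i * b' j * C.ub) := by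
        rw [wMap_apply, wMap_apply, map_mul _ _ C.ub, ← C.gen_pow, mul_assoc, ← pow_add,
          Nat.add_sub_cancel' (by omega)]
      rw [e', C.coord0_wMap_gen (by omega), if_neg (show (i : ℕ) + j ≠ 0 by have := C.pos; omega),
        zero_add]
      by_cases heq : (i : ℕ) + j = C.m
      · rw [if_pos (by omega), if_pos heq]; ring
      · rw [if_neg (by omega), if_neg heq, mul_zero]
  rw [show (∑ i : Fin C.m, C.wMap C.gen i (b i)) * ∑ i : Fin C.m, C.wMap C.gen i (b' i) =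
    ∑ i : Fin C.m, ∑ j : Fin C.m, C.wMap C.gen i (b i) * C.wMap C.gen j (b' j) from
      Finset.sum_mul_sum _ _ _ _]
  simp only [map_sum, key, Finset.sum_add_distrib, Finset.mul_sum]
  congr 1
  rw [Finset.sum_eq_single ⟨0, C.pos⟩ (fun i _ hi => Finset.sum_eq_zero fun j _ =>
    if_neg fun h => hi (Fin.ext (show (i : ℕ) = 0 by omega))) (by simp)]
  rw [Finset.sum_eq_single ⟨0, C.pos⟩ (fun j _ hj => if_neg fun h => hj
    (Fin.ext (show (j : ℕ) = 0 by omega))) (by simp)]
  simp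

/-- Evaluation at a glued point on the first sheet. -/
def nodeS (i : Fin N.n) : C.resField →ₗ[k] k := (N.s i).comp C.coord0

/-- Evaluation at a glued point on the second sheet. -/
def nodeT (i : Fin N.n) : C.resField →ₗ[k] k :=
  (N.s i).comp (S.V.toLinearMap.comp C.coord0)

theorem node_mul (i : Fin N.n) {z z' : C.resField}
    (hz : IntegralWrt k (algebraMap Fb C.resField S.MC.xb) z)
    (hz' : IntegralWrt k (algebraMap Fb C.resField S.MC.xb) z') :
    C.nodeS i (z * z') = C.nodeS i z * C.nodeS i z' ∧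
      C.nodeT i (z * z') = C.nodeT i z * C.nodeT i z' := by
  obtain ⟨b, hb, rfl⟩ := C.comp_regular hz
  obtain ⟨b', hb', rfl⟩ := C.comp_regular hz'
  obtain ⟨r, hr, he⟩ := C.coord0_mul hb hb'
  have h0 := hb ⟨0, C.pos⟩
  have h0' := hb' ⟨0, C.pos⟩
  have hy := fun j hj x => C.coord0_wMap_gen (i := j) hj x
  constructor
  · show N.s i (C.coord0 _) = N.s i (C.coord0 _) * N.s i (C.coord0 _)
    rw [he, C.coord0_sum hy, C.coord0_sum hy, map_add, N.s_mul i _ _ h0 h0',
      N.s_mul i _ _ C.ub_regular hr, (C.node_zero i).1, zero_mul, add_zero]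
  · show N.s i (S.V (C.coord0 _)) = N.s i (S.V (C.coord0 _)) * N.s i (S.V (C.coord0 _))
    rw [he, C.coord0_sum hy, C.coord0_sum hy, map_add S.V, map_mul, map_mul, map_add,
      N.s_mul i _ _ (S.V_mem_regular h0) (S.V_mem_regular h0'),
      N.s_mul i _ _ (S.V_mem_regular C.ub_regular) (S.V_mem_regular hr), (C.node_zero i).2,
      zero_mul, add_zero]

theorem node_compat {M : ℕ} {g : C.resField × C.resField} (hg : g ∈ C.twoSheet.rimg M)
    (i : Fin N.n) : C.nodeS i g.1 = C.nodeT i g.2 := by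
  obtain ⟨f, hf, h⟩ := (LRed.mem_image S.MC.surj).1 hg
  obtain ⟨a, rfl⟩ := C.exists_coordF f
  obtain ⟨b, hb, rfl⟩ := C.pair_comp_res one_ne_zero h
  have h0 := hb ⟨0, C.pos⟩
  simp only [pow_zero, mul_one] at h0
  have ha : a ⟨0, C.pos⟩ ∈ riemannRochSpace ((M : ℤ) • poleDiv L S.X) :=
    (space_zero C.pos C.U_ne).1 (C.comp_memF hf ⟨0, C.pos⟩)
  have hc := N.compat M _ (LRed.mem_image_of_res ha h0) i
  simp only [wPair_apply, Prod.fst_sum, Prod.snd_sum]
  show N.s i (C.coord0 _) = N.s i (S.V (C.coord0 _))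
  rw [C.coord0_sum (fun j hj x => C.coord0_wMap_gen hj x),
    C.coord0_sum (fun j hj x => C.coord0_wMap_theta hj x)]
  exact hc

variable (hS : S.Good)
include hS

theorem exists_lift_comp {i : ℕ} (hi : 0 < i) (him : i < C.m) {M : ℕ} (hN : N.m₀ ≤ M)
    (hF : rBound L F₀ ≤ M)
    (h₁ : rBound k Fb + |Divisor.degree (Rad.floorDiv C.m ((i : ℤ) • divOf k C.ub))| ≤ M)
    (h₂ : rBound k Fb +
      |Divisor.degree (Rad.floorDiv C.m ((i : ℤ) • divOf k (C.e ^ C.m / C.ub)))| ≤ M)
    {b : Fb × Fb} (hb₁ : b.1 ∈ C.sp₁ i M) (hb₂ : b.2 ∈ C.sp₂ i M) :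
    ∃ a ∈ C.spF i M, (S.pair (C.c⁻¹ ^ i)).Res a b := by
  have hd : C.c⁻¹ ^ i ≠ 0 := pow_ne_zero _ (inv_ne_zero C.c_ne)
  set P := (C.sp₁ i M).prod (C.sp₂ i M) with hP
  have hb : b ∈ P := ⟨hb₁, hb₂⟩
  haveI : FiniteDimensional k (C.sp₁ i M) := finiteDimensional_rrSpace _
  haveI : FiniteDimensional k (C.sp₂ i M) := finiteDimensional_rrSpace _
  haveI : FiniteDimensional L (C.spF i M) := finiteDimensional_rrSpace _
  haveI : FiniteDimensional k P := Module.Finite.equiv (prodSubEquiv _ _).symm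
  have hle : (S.pair (C.c⁻¹ ^ i)).image (C.spF i M) ≤ P :=
    LRed.image_le fun a g ha h => C.res_mem_space ha h
  suffices heq : (S.pair (C.c⁻¹ ^ i)).image (C.spF i M) = P by
    rw [← heq] at hb
    exact (LRed.mem_image S.MC.surj).1 hb
  refine Submodule.eq_of_le_of_finrank_le hle ?_
  rw [hP, (prodSubEquiv _ _).finrank_eq, Module.finrank_prod,
    LRed.finrank_image (S.orth hd) S.MC.surj]
  have e0 := Rad.finrank_space (m := C.m) (i := i) (u := C.U) (M := M) S.transcendental_X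
    (by rw [C.degree_spF, abs_zero, add_zero]; exact hF)
  rw [C.degree_spF, add_zero] at e0
  have e1 := Rad.finrank_space (m := C.m) (i := i) (u := C.ub) (M := M) S.MC.transcendental h₁
  have e2 := Rad.finrank_space (m := C.m) (i := i) (u := C.e ^ C.m / C.ub) (M := M)
    (S.MC.transcendental.pow (lt_trans Nat.zero_lt_one S.one_lt)) h₂
  have e3 := Rad.degree_floorDiv_pair C.pos C.ub_ne C.e_ne C.zeroSet
    (fun v hv => (C.mem_zeroSet.1 hv).2) hi him
  have e4 := BadRed.Sheet.finrank_twisted_add hS N (ζ := 1) (fun _ => one_ne_zero) hN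
  rw [← hS.rimg_eq_twisted N hN, Sheet.rimg, LRed.finrank_image S.orth_one S.MC.surj, Sheet.targ,
    (prodSubEquiv _ _).finrank_eq, Module.finrank_prod] at e4
  have e5 : riemannRochSpace ((M : ℤ) • poleDiv k (S.MC.xb ^ q)) =
      riemannRochSpace (((q * M : ℕ) : ℤ) • poleDiv k S.MC.xb) :=
    Submodule.ext fun f => poles_pow_coord
  rw [e5] at e2
  have e6 := C.n_le_card
  simp only [spF, sp₁, sp₂]
  omega

/-- The glued points of the two sheet of a cover. -/
theorem exists_nodes : ∃ G : C.twoSheet.Nodes, ∀ τ : C.resField →+* C.resField,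
    (∀ z, C.coord0 (τ z) = C.coord0 z) → ∀ i a, G.s i (τ a) = G.s i a ∧ G.t i (τ a) = G.t i a := by
  classical
  choose lift hlift hliftv using fun j : Fin N.n => N.surj N.m₀ le_rfl (Pi.single j 1)
  choose md hmd using fun j : Fin N.n =>
    exists_mem_poles (S.V_mem_regular (mem_rrSpace_poles.1 (hlift j)).1)
  let B : ℤ := rBound L F₀ + rBound k Fb + ∑ i : Fin C.m,
    (|Divisor.degree (Rad.floorDiv C.m (((i : ℕ) : ℤ) • divOf k C.ub))| +
      |Divisor.degree (Rad.floorDiv C.m (((i : ℕ) : ℤ) • divOf k (C.e ^ C.m / C.ub)))|)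
  set m₀ := N.m₀ + Finset.univ.sup md + B.toNat +
    ((rBound k C.resField).toNat + (rBound L F).toNat) with hm₀
  refine ⟨{
    n := N.n
    s := C.nodeS
    t := C.nodeT
    m₀ := m₀
    bound_le := by omega
    s_one := fun i => ?_
    t_one := fun i => ?_
    s_mul := fun i a b ha hb => (C.node_mul i ha hb).1
    t_mul := fun i a b ha hb =>
      (C.node_mul i (C.integral_pow_iff.1 ha) (C.integral_pow_iff.1 hb)).2
    surj₁ := fun M hM c => ?_
    surj₂ := fun M hM c => ?_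
    compat := fun M g hg i => C.node_compat hg i
    char := fun M hM g hg hglue => ?_ }, fun τ hτ i a => ⟨?_, ?_⟩⟩
  · have h1 : (1 : C.resField) = C.wMap C.gen 0 1 := by simp [wMap_apply]
    show N.s i (C.coord0 1) = 1
    rw [h1, C.coord0_wMap_gen C.pos, if_pos rfl, N.s_one]
  · have h1 : (1 : C.resField) = C.wMap C.gen 0 1 := by simp [wMap_apply]
    show N.s i (S.V (C.coord0 1)) = 1
    rw [h1, C.coord0_wMap_gen C.pos, if_pos rfl, map_one, N.s_one]
  · obtain ⟨a, ha, hac⟩ := N.surj M (by omega) c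
    refine ⟨algebraMap Fb C.resField a, Rad.poles_algebraMap.2 ha, fun i => ?_⟩
    have h1 : algebraMap Fb C.resField a = C.wMap C.gen 0 a := by simp [wMap_apply]
    show N.s i (C.coord0 _) = c i
    rw [h1, C.coord0_wMap_gen C.pos, if_pos rfl, hac]
  · refine ⟨algebraMap Fb C.resField (∑ j, c j • S.V (lift j)), Rad.poles_algebraMap.2 ?_,
      fun i => ?_⟩
    · refine Submodule.sum_mem _ fun j _ => Submodule.smul_mem _ _ ?_
      rw [poles_pow_coord]
      refine poles_mono ?_ (hmd j)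
      have h2 : md j ≤ Finset.univ.sup md := Finset.le_sup (Finset.mem_univ j)
      calc md j ≤ M := by omega
        _ ≤ q * M := Nat.le_mul_of_pos_left _ (lt_trans Nat.zero_lt_one S.one_lt)
    · have h1 : algebraMap Fb C.resField (∑ j, c j • S.V (lift j)) =
          C.wMap C.gen 0 (∑ j, c j • S.V (lift j)) := by rw [wMap_apply, pow_zero, mul_one]
      show N.s i (S.V (C.coord0 _)) = c i
      rw [h1, C.coord0_wMap_gen C.pos, if_pos rfl, map_sum, map_sum]
      simp only [map_smul, N.s_V i _ (mem_rrSpace_poles.1 (hlift _)).1, hliftv]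
      simp [Pi.single_apply]
  · obtain ⟨b₁, hb₁⟩ := C.exists_coord₁ g.1
    obtain ⟨b₂, hb₂⟩ := C.exists_coord₂ g.2
    have hg₁ : (∑ i : Fin C.m, C.wMap C.gen i (b₁ i)) ∈
        riemannRochSpace ((M : ℤ) • poleDiv k (algebraMap Fb C.resField S.MC.xb)) := hb₁ ▸ hg.1
    have hg₂ : (∑ i : Fin C.m, C.wMap C.theta i (b₂ i)) ∈
        riemannRochSpace ((M : ℤ) • poleDiv k (algebraMap Fb C.resField (S.MC.xb ^ q))) :=
      hb₂ ▸ hg.2
    have hm₁ : ∀ i : Fin C.m, b₁ i ∈ C.sp₁ i M := fun i => C.radGen.comp_mem C.m_ne hg₁ i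
    have hm₂ : ∀ i : Fin C.m, b₂ i ∈ C.sp₂ i M := fun i => C.radGen₂.comp_mem C.m_ne hg₂ i
    have hlift' : ∀ i : Fin C.m, ∃ a ∈ C.spF i M,
        (S.pair (C.c⁻¹ ^ (i : ℕ))).Res a (b₁ i, b₂ i) := by
      intro i
      have hB : ∀ j : Fin C.m,
          |Divisor.degree (Rad.floorDiv C.m (((j : ℕ) : ℤ) • divOf k C.ub))| +
            |Divisor.degree (Rad.floorDiv C.m (((j : ℕ) : ℤ) • divOf k (C.e ^ C.m / C.ub)))| ≤
              B - rBound L F₀ - rBound k Fb := fun j => by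
        simp only [B]
        have := Finset.single_le_sum (f := fun i : Fin C.m =>
          |Divisor.degree (Rad.floorDiv C.m (((i : ℕ) : ℤ) • divOf k C.ub))| +
            |Divisor.degree (Rad.floorDiv C.m (((i : ℕ) : ℤ) • divOf k (C.e ^ C.m / C.ub)))|)
          (fun i _ => by positivity) (Finset.mem_univ j)
        linarith
      have hB' := hB i
      have hBM : B ≤ M := by have := Int.self_le_toNat B; omega
      have h1 := rBound_nonneg (K := L) (F := F₀)
      have h2 := rBound_nonneg (K := k) (F := Fb)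
      have h3 := abs_nonneg (Divisor.degree (Rad.floorDiv C.m (((i : ℕ) : ℤ) • divOf k C.ub)))
      have h4 := abs_nonneg
        (Divisor.degree (Rad.floorDiv C.m (((i : ℕ) : ℤ) • divOf k (C.e ^ C.m / C.ub))))
      rcases Nat.eq_zero_or_pos (i : ℕ) with h0 | hpos
      · have e : i = ⟨0, C.pos⟩ := Fin.ext h0
        subst e
        have hgl : (b₁ ⟨0, C.pos⟩, b₂ ⟨0, C.pos⟩) ∈ S.rimg M := by
          have hN : N.m₀ ≤ M := le_trans (le_trans (le_trans (Nat.le_add_right _ _)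
            (Nat.le_add_right _ _)) (Nat.le_add_right _ _)) hM
          have hz₁ : b₁ ⟨0, C.pos⟩ ∈ riemannRochSpace ((M : ℤ) • poleDiv k S.MC.xb) :=
            (space_zero (K := k) (x := S.MC.xb) (u := C.ub) (m := C.m) (M := M) C.pos C.ub_ne).1
              (hm₁ ⟨0, C.pos⟩)
          have hz₂ : b₂ ⟨0, C.pos⟩ ∈
              riemannRochSpace (((q * M : ℕ) : ℤ) • poleDiv k S.MC.xb) :=
            poles_pow_coord.1 ((space_zero (K := k) (x := S.MC.xb ^ q)
              (u := C.e ^ C.m / C.ub) (m := C.m) (M := M) C.pos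
              (div_ne_zero (pow_ne_zero _ C.e_ne) C.ub_ne)).1 (hm₂ ⟨0, C.pos⟩))
          refine N.char M hN _ ⟨hz₁, hz₂⟩ fun j => ?_
          · have := hglue j
            change N.s j (C.coord0 g.1) = N.s j (S.V (C.coord0 g.2)) at this
            rwa [hb₁, hb₂, C.coord0_sum (fun j hj x => C.coord0_wMap_gen hj x),
              C.coord0_sum (fun j hj x => C.coord0_wMap_theta hj x)] at this
        obtain ⟨a, ha, hres⟩ := (LRed.mem_image S.MC.surj).1 hgl
        exact ⟨a, (space_zero C.pos C.U_ne).2 ha, by simpa using hres⟩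
      · exact C.exists_lift_comp hS hpos i.2 (by omega) (by omega) (by omega) (by omega)
          (hm₁ i) (hm₂ i)
    choose a ha hres using hlift'
    refine LRed.mem_image_of_res (C.sum_memF ha) ?_
    have h := LRed.res_sum (R := pairRed C.red₁ C.red₂ 1) (s := Finset.univ)
      fun (i : Fin C.m) _ => C.pair_comp 1 i (a i) (b₁ i, b₂ i) (by rw [one_mul]; exact hres i)
    rw [show g = ∑ i : Fin C.m, C.wPair i (b₁ i, b₂ i) from
      Prod.ext (by simpa [wPair_apply, Prod.fst_sum] using hb₁)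
        (by simpa [wPair_apply, Prod.snd_sum] using hb₂)]
    exact h
  · show N.s i (C.coord0 (τ a)) = N.s i (C.coord0 a)
    rw [hτ]
  · show N.s i (S.V (C.coord0 (τ a))) = N.s i (S.V (C.coord0 a))
    rw [hτ]

omit hS

theorem coord0_fix {τ : C.resField →+* C.resField}
    (hτ : ∀ a : C.resField, (a : Ω) ∈ Fb → τ a = a) (z : C.resField) :
    C.coord0 (τ z) = C.coord0 z := by
  haveI : NeZero (C.m : k) := ⟨C.m_ne⟩
  obtain ⟨ζ, hζ⟩ := HasEnoughRootsOfUnity.exists_primitiveRoot k C.m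
  haveI : NeZero C.m := ⟨C.pos.ne'⟩
  have hfix : ∀ a : Fb, τ (algebraMap Fb C.resField a) = algebraMap Fb C.resField a :=
    fun a => hτ _ a.2
  have hu : (τ C.gen / C.gen) ^ C.m = 1 := by
    rw [div_pow, ← map_pow, C.gen_pow, hfix, div_self ((_root_.map_ne_zero _).2 C.ub_ne)]
  obtain ⟨r, -, hr⟩ := (hζ.map_of_injective
    (algebraMap k C.resField).injective).eq_pow_of_pow_eq_one hu
  have hg : τ C.gen = algebraMap k C.resField (ζ ^ r) * C.gen := by
    rw [map_pow, hr, div_mul_cancel₀ _ C.gen_ne]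
  obtain ⟨b, rfl⟩ := C.exists_coord₁ z
  have he : τ (∑ i : Fin C.m, C.wMap C.gen i (b i)) =
      ∑ i : Fin C.m, C.wMap C.gen i ((ζ ^ r) ^ (i : ℕ) • b i) := by
    rw [map_sum]
    refine Finset.sum_congr rfl fun i _ => ?_
    rw [map_smul, wMap_apply, map_mul, map_pow, hfix, hg, mul_pow, Algebra.smul_def]
    simp only [map_pow]
    ring
  have hy := fun j hj x => C.coord0_wMap_gen (i := j) hj x
  rw [he, C.coord0_sum hy, C.coord0_sum hy]
  simp

theorem exists_root_scalar (δ : F ≃ₐ[F₀] F) :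
    ∃ ζ : A, ζ ^ C.m = 1 ∧ δ C.x = algebraMap L F ζ * C.x := by
  haveI : NeZero (C.m : L) := ⟨C.m_ne_L⟩
  haveI : NeZero C.m := ⟨C.pos.ne'⟩
  obtain ⟨ζ, hζ⟩ := HasEnoughRootsOfUnity.exists_primitiveRoot L C.m
  have hu : (δ C.x / C.x) ^ C.m = 1 := by
    rw [div_pow, ← map_pow, C.x_pow, δ.commutes, div_self ((_root_.map_ne_zero _).2 C.U_ne)]
  obtain ⟨r, -, hr⟩ := (hζ.map_of_injective
    (algebraMap L F).injective).eq_pow_of_pow_eq_one hu
  have hpow : (ζ ^ r) ^ C.m = 1 := by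
    rw [← pow_mul, mul_comm, pow_mul, hζ.pow_eq_one, one_pow]
  have hmem : ζ ^ r ∈ A := by
    rcases A.mem_or_inv_mem (ζ ^ r) with h | h
    · exact h
    · have h' : ζ ^ r = (ζ ^ r)⁻¹ ^ (C.m - 1) := by
        rw [inv_pow]
        refine eq_inv_of_mul_eq_one_left ?_
        rw [← pow_succ', Nat.sub_add_cancel C.pos, hpow]
      rw [h']
      exact pow_mem h _
  refine ⟨⟨_, hmem⟩, Subtype.ext (by simpa using hpow), ?_⟩
  rw [map_pow, hr, div_mul_cancel₀ _ C.x_ne]

theorem exists_deck (δ : F ≃ₐ[F₀] F) : ∃ τ₁ τ₂ : C.resField →+* C.resField,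
    (∀ a : C.resField, (a : Ω) ∈ Fb → τ₁ a = a ∧ τ₂ a = a) ∧
      (∀ f g, C.red₁.Res f g → C.red₁.Res (δ f) (τ₁ g)) ∧
      ∀ f g, C.red₂.Res f g → C.red₂.Res (δ f) (τ₂ g) := by
  obtain ⟨ζ, hζ, hδ⟩ := C.exists_root_scalar δ
  have hζk : (π ζ) ^ C.m = 1 := by rw [← map_pow, hζ, map_one]
  let τ₁ := C.radGen.aut (K := k) hζk
  let τ₂ := C.radGen₂.aut (K := k) hζk
  have hδv : ∀ (i : ℕ) (a : F₀), δ (C.vMap i a) = C.vMap i (((ζ : L) ^ i) • a) := fun i a => by
    rw [map_smul, vMap_apply, map_mul, map_pow, δ.commutes, hδ, mul_pow, Algebra.smul_def, map_pow]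
    ring
  have hw : ∀ (y : C.resField) (i : ℕ) (b : Fb), C.wMap y i ((π ζ) ^ i • b) =
      (π ζ) ^ i • (algebraMap Fb C.resField b * y ^ i) := fun y i b => by
    rw [map_smul, wMap_apply]
  refine ⟨(τ₁ : C.resField →+* C.resField), (τ₂ : C.resField →+* C.resField), fun a ha => ?_,
    fun f g h => ?_, fun f g h => ?_⟩
  · obtain ⟨a', rfl⟩ : ∃ a' : Fb, algebraMap Fb C.resField a' = a := ⟨⟨a, ha⟩, rfl⟩
    exact ⟨τ₁.commutes a', τ₂.commutes a'⟩
  · obtain ⟨a, rfl⟩ := C.exists_coordF f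
    obtain ⟨b, hb, hgb⟩ := Comp.comp_res S.MC.surj
      (R := Comp.twistLin C.red₁ 1) (Ri := fun _ : Fin C.m => Comp.twistLin S.R₁ 1)
      (v := fun i : Fin C.m => C.vMap i) (w := fun i : Fin C.m => C.wMap C.gen i)
      (fun i a b h => by
        change C.red₁.Res ((1 : L) • _) _
        change S.R₁.Res ((1 : L) • a) b at h
        rw [one_smul] at h ⊢
        exact C.red₁_res.2 (C.res₁_comp i h)) C.indep_gen (fun i => C.scale_one i) (g := g)
      (by show C.red₁.Res ((1 : L) • _) g; rwa [one_smul])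
    rw [hgb, map_sum]
    have hτ : (τ₁ : C.resField →+* C.resField) (∑ i : Fin C.m, C.wMap C.gen i (b i)) =
        ∑ i : Fin C.m, C.wMap C.gen i ((π ζ) ^ (i : ℕ) • b i) :=
      (C.radGen.aut_sum (K := k) hζk b).trans (Finset.sum_congr rfl fun i _ => (hw _ _ _).symm)
    rw [hτ, red₁_res, IntermediateField.coe_sum]
    refine Reduction.Res.sum fun i _ => ?_
    rw [hδv]
    refine C.res₁_comp i ?_
    have h1 := hb i
    change S.R₁.Res ((1 : L) • a i) (b i) at h1
    rw [one_smul] at h1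
    have h2 := h1.smul (ζ ^ (i : ℕ))
    simpa using h2
  · obtain ⟨a, rfl⟩ := C.exists_coordF f
    obtain ⟨b, hb, hgb⟩ := Comp.comp_res S.MC.surj
      (R := Comp.twistLin C.red₂ 1)
      (Ri := fun i : Fin C.m => Comp.twistLin S.R₂ (C.c⁻¹ ^ (i : ℕ)))
      (v := fun i : Fin C.m => C.vMap i) (w := fun i : Fin C.m => C.wMap C.theta i)
      (fun i a b h => by
        change C.red₂.Res ((1 : L) • _) _
        rw [one_smul]
        exact C.red₂_res.2 (C.res₂_comp i h)) C.indep_theta (fun i => C.scale_two i) (g := g)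
      (by show C.red₂.Res ((1 : L) • _) g; rwa [one_smul])
    rw [hgb, map_sum]
    have hτ : (τ₂ : C.resField →+* C.resField) (∑ i : Fin C.m, C.wMap C.theta i (b i)) =
        ∑ i : Fin C.m, C.wMap C.theta i ((π ζ) ^ (i : ℕ) • b i) :=
      (C.radGen₂.aut_sum (K := k) hζk b).trans (Finset.sum_congr rfl fun i _ => (hw _ _ _).symm)
    rw [hτ, red₂_res, IntermediateField.coe_sum]
    refine Reduction.Res.sum fun i _ => ?_
    rw [hδv]
    refine C.res₂_comp i ?_
    have h1 : S.R₂.Res (C.c⁻¹ ^ (i : ℕ) • a i) (b i) := hb i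
    have h2 := h1.smul (ζ ^ (i : ℕ))
    rw [smul_comm]
    simpa using h2

end Cover

/-- A cover is a two sheet. -/
theorem targetCover : TargetCover := by
  intro L k _ _ _ _ A π FC F₀ Ω _ _ _ _ _ _ _ _ Fb _ q S hS N F _ _ _ _ _ C
  obtain ⟨G, hG⟩ := C.exists_nodes hS
  exact ⟨C.isFunctionField_resField, C.twoSheet, G, rfl, fun f g => C.red₁_res,
    fun f g => C.red₂_res,
    fun τ hτ i a => ⟨fun _ => (hG τ (C.coord0_fix hτ) i a).1,
      fun _ => (hG τ (C.coord0_fix hτ) i a).2⟩,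
    C.exists_deck⟩

end FLTAgent.Lowering.P3
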