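import Fermat.Agent.Lowering.P3.Interface
import Fermat.Agent.BadRed.Criterion

/-!
# Linear reductions decomposed into components
-/

set_option autoImplicit false
set_option linter.style.haveILetI false
set_option linter.unusedSectionVars false

noncomputable section

namespace FLTAgent.Lowering.P3.Comp

open FLTAgent.Specialization FLTAgent.BadRed

variable {L k : Type} [Field L] [Field k] {A : ValuationSubring L} {π : A →+* k}

/-- A reduction as a linear reduction, twisted by a constant. -/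
def twistLin {F Fb : Type} [Field F] [Field Fb] [Algebra L F] [Algebra k Fb]
    (R : Reduction π F Fb) (d : L) : LRed π F Fb where
  Res f g := R.Res (d • f) g
  unique h h' := h.unique h'
  res_zero := by rw [smul_zero]; exact R.res_zero
  res_add h h' := by rw [smul_add]; exact h.add h'
  res_smul := fun a {_ _} h => by rw [smul_comm]; exact h.smul a

theorem twistLin_scale {F Fb : Type} [Field F] [Field Fb] [Algebra L F] [Algebra k Fb]
    {R : Reduction π F Fb} (hR : R.Scaled) {d : L} (hd : d ≠ 0) (a : F) (ha : a ≠ 0) :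
    ∃ (c : L) (b : Fb), b ≠ 0 ∧ (twistLin R d).Res (c • a) b := by
  obtain ⟨c, b, hb, h⟩ := hR a ha
  refine ⟨c / d, b, hb, ?_⟩
  show R.Res (d • (c / d) • a) b
  rwa [smul_smul, mul_div_cancel₀ _ hd]

/-- A reduction with values in a subfield. -/
def restrictRed {F Ω : Type} [Field F] [Field Ω] [Algebra L F] [Algebra k Ω]
    (Q : Reduction π F Ω) (E : IntermediateField k Ω) (h : ∀ f g, Q.Res f g → g ∈ E) :
    Reduction π F E where
  O := Q.O
  red :=
    { toFun := fun f => ⟨Q.red f, h _ _ (Q.res_red f.2)⟩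
      map_one' := Subtype.ext (map_one Q.red)
      map_mul' := fun f g => Subtype.ext (map_mul Q.red f g)
      map_zero' := Subtype.ext (map_zero Q.red)
      map_add' := fun f g => Subtype.ext (map_add Q.red f g) }
  algebraMap_mem := Q.algebraMap_mem
  red_algebraMap a := Subtype.ext (Q.red_algebraMap a)
  inv_mem f hf := Q.inv_mem f fun h0 => hf (Subtype.ext h0)

theorem restrictRed_res {F Ω : Type} [Field F] [Field Ω] [Algebra L F] [Algebra k Ω]
    {Q : Reduction π F Ω} {E : IntermediateField k Ω} (h : ∀ f g, Q.Res f g → g ∈ E) {f : F}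
    {g : E} : (restrictRed Q E h).Res f g ↔ Q.Res f (g : Ω) :=
  ⟨fun ⟨hf, e⟩ => ⟨hf, congrArg Subtype.val e⟩, fun ⟨hf, e⟩ => ⟨hf, Subtype.ext e⟩⟩

variable {E W E₀ W₀ : Type} [AddCommGroup E] [Module L E] [AddCommGroup W] [Module k W]
  [AddCommGroup E₀] [Module L E₀] [AddCommGroup W₀] [Module k W₀] {ι : Type} [Fintype ι]
  {R : LRed π E W} {Ri : ι → LRed π E₀ W₀} {v : ι → E₀ →ₗ[L] E} {w : ι → W₀ →ₗ[k] W}
  (hπ : Function.Surjective π) (hvw : ∀ i a b, (Ri i).Res a b → R.Res (v i a) (w i b))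
  (hw : ∀ b : ι → W₀, ∑ i, w i (b i) = 0 → b = 0)
  (hscale : ∀ i a, a ≠ 0 → ∃ (c : L) (b : W₀), b ≠ 0 ∧ (Ri i).Res (c • a) b)

include hπ hscale in
theorem exists_scale {a : ι → E₀} (ha : a ≠ 0) :
    ∃ (c : L) (b : ι → W₀), b ≠ 0 ∧ ∀ i, (Ri i).Res (c • a i) (b i) := by
  classical
  have h : ∀ i, ∃ (c : L) (b : W₀), (a i ≠ 0 → b ≠ 0) ∧ (a i = 0 → c = 0) ∧
      (Ri i).Res (c • a i) b := fun i => by
    by_cases hi : a i = 0
    · exact ⟨0, 0, fun h => absurd hi h, fun _ => rfl, by rw [zero_smul]; exact (Ri i).res_zero⟩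
    · obtain ⟨c, b, hb, h⟩ := hscale i (a i) hi
      exact ⟨c, b, fun _ => hb, fun h => absurd h hi, h⟩
  choose c b hb hc hres using h
  obtain ⟨i₀, hi₀⟩ := Function.ne_iff.1 ha
  have hc0 : ∀ i, a i ≠ 0 → c i ≠ 0 := fun i hi h0 => hb i hi (by
    have := hres i
    rw [h0, zero_smul] at this
    exact (Ri i).unique this (Ri i).res_zero)
  obtain ⟨s, j, hs, hj⟩ := (Reduction.base_total hπ).exists_scale_family (c := fun i => (c i)⁻¹)
    (Function.ne_iff.2 ⟨i₀, inv_ne_zero (hc0 i₀ hi₀)⟩)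
  have hs' : ∀ i, s * (c i)⁻¹ ∈ A := hs
  refine ⟨s, fun i => π ⟨_, hs' i⟩ • b i, fun h0 => ?_, fun i => ?_⟩
  · have h1 := congrFun h0 j
    rw [Pi.zero_apply, show (⟨_, hs' j⟩ : A) = 1 from Subtype.ext hj, map_one, one_smul] at h1
    refine hb j (fun hj0 => ?_) h1
    rw [hc j hj0, inv_zero, mul_zero] at hj
    exact zero_ne_one hj
  · by_cases hi : a i = 0
    · have := (Ri i).res_smul ⟨_, hs' i⟩ (hres i)
      rw [hi, smul_zero, smul_zero] at this
      rwa [hi, smul_zero]
    · have := (Ri i).res_smul ⟨_, hs' i⟩ (hres i)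
      rwa [smul_smul, mul_assoc, inv_mul_cancel₀ (hc0 i hi), mul_one] at this

include hπ hvw hw hscale

theorem indep {a : ι → E₀} (h : ∑ i, v i (a i) = 0) : a = 0 := by
  by_contra ha
  obtain ⟨c, b, hb, hres⟩ := exists_scale hπ hscale ha
  have h1 := LRed.res_sum (R := R) (s := Finset.univ) fun i _ => hvw i _ _ (hres i)
  simp only [map_smul, ← Finset.smul_sum, h, smul_zero] at h1
  exact hb (hw b (R.unique h1 R.res_zero))

/-- Integrality is componentwise. -/
theorem comp_res {a : ι → E₀} {g : W} (h : R.Res (∑ i, v i (a i)) g) :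
    ∃ b : ι → W₀, (∀ i, (Ri i).Res (a i) (b i)) ∧ g = ∑ i, w i (b i) := by
  by_cases ha : a = 0
  · subst ha
    refine ⟨0, fun i => (Ri i).res_zero, ?_⟩
    simp only [Pi.zero_apply, map_zero, Finset.sum_const_zero] at h ⊢
    exact R.unique h R.res_zero
  obtain ⟨c, b, hb, hres⟩ := exists_scale hπ hscale ha
  have h1 := LRed.res_sum (R := R) (s := Finset.univ) fun i _ => hvw i _ _ (hres i)
  simp only [map_smul, ← Finset.smul_sum] at h1
  have hc : c⁻¹ ∈ A := by
    by_contra hn
    have hcA : c ∈ A := (A.mem_or_inv_mem c).resolve_right hn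
    have h2 := R.res_smul ⟨c, hcA⟩ h
    rw [Reduction.map_eq_zero_of_inv_notMem hπ (a := ⟨c, hcA⟩) hn, zero_smul] at h2
    exact hb (hw b (R.unique h1 h2))
  have hc0 : c ≠ 0 := by
    rintro rfl
    simp only [zero_smul] at h1
    exact hb (hw b (R.unique h1 R.res_zero))
  have key : ∀ i, (Ri i).Res (a i) (π ⟨_, hc⟩ • b i) := fun i => by
    have := (Ri i).res_smul ⟨_, hc⟩ (hres i)
    rwa [inv_smul_smul₀ hc0] at this
  exact ⟨_, key, R.unique h (LRed.res_sum fun i _ => hvw i _ _ (key i))⟩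

/-- Componentwise orthonormal bases. -/
theorem orth (hO : ∀ i, (Ri i).Orth) (hsp : ∀ f : E, ∃ a : ι → E₀, f = ∑ i, v i (a i)) :
    R.Orth := by
  classical
  intro U hU
  let bU := Module.finBasis L U
  choose a ha using fun j => hsp (bU j : E)
  let Ui : ι → Submodule L E₀ := fun i => Submodule.span L (Set.range fun j => a j i)
  haveI : ∀ i, FiniteDimensional L (Ui i) := fun i =>
    FiniteDimensional.span_of_finite L (Set.finite_range _)
  choose u z hu huz hz hus using fun i =>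
    let ⟨u, z, h1, h2, h3, h4, _⟩ := LRed.exists_basis (hO i) hπ (Ui i)
    (⟨u, z, h1, h2, h3, h4⟩ : ∃ (u : Fin (Module.finrank L (Ui i)) → E₀)
      (z : Fin (Module.finrank L (Ui i)) → W₀), (∀ j, u j ∈ Ui i) ∧
        (∀ j, (Ri i).Res (u j) (z j)) ∧ LinearIndependent k z ∧
        Submodule.span L (Set.range u) = Ui i)
  refine LRed.exists_orth_of_le hπ (ι := Σ i, Fin (Module.finrank L (Ui i)))
    (v := fun p => v p.1 (u p.1 p.2)) (w := fun p => w p.1 (z p.1 p.2))
    (fun p => hvw _ _ _ (huz p.1 p.2)) ?_ ?_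
  · rw [Fintype.linearIndependent_iff]
    intro c hc p
    rw [Fintype.sum_sigma] at hc
    have h1 := hw (fun i => ∑ j, c ⟨i, j⟩ • z i j) (by simpa [map_sum] using hc)
    exact Fintype.linearIndependent_iff.1 (hz p.1) (fun j => c ⟨p.1, j⟩) (congrFun h1 p.1) p.2
  · intro f hf
    have hf' : U.subtype (∑ j, bU.repr ⟨f, hf⟩ j • bU j) = f :=
      congrArg Subtype.val (bU.sum_repr ⟨f, hf⟩)
    simp only [map_sum, map_smul, Submodule.coe_subtype] at hf'
    rw [← hf']
    refine Submodule.sum_mem _ fun j _ => Submodule.smul_mem _ _ ?_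
    rw [ha j]
    refine Submodule.sum_mem _ fun i _ => ?_
    have hmem : a j i ∈ Submodule.span L (Set.range (u i)) := by
      rw [hus]; exact Submodule.subset_span ⟨j, rfl⟩
    obtain ⟨d, hd⟩ := (Submodule.mem_span_range_iff_exists_fun L).1 hmem
    rw [← hd, map_sum]
    exact Submodule.sum_mem _ fun l _ => by
      rw [map_smul]; exact Submodule.smul_mem _ _ (Submodule.subset_span ⟨⟨i, l⟩, rfl⟩)

end FLTAgent.Lowering.P3.Comp
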