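import Fermat.Agent.Lowering.P3.Cover.Kummer

/-!
# The field of residues of a cover
-/

set_option autoImplicit false
set_option linter.style.haveILetI false
set_option linter.unusedSectionVars false
set_option synthInstance.maxHeartbeats 400000
set_option maxHeartbeats 800000

noncomputable section

namespace FLTAgent.Lowering.P3

open AlgebraicCurve FLTAgent.Curves FLTAgent.Specialization FLTAgent.BadRed Polynomial
  IntermediateField

variable {L k : Type} [Field L] [Field k] [IsAlgClosed L] [IsAlgClosed k] {A : ValuationSubring L}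
  {π : A →+* k} {FC F₀ Ω : Type} [Field FC] [Field F₀] [Field Ω] [Algebra L FC] [Algebra L F₀]
  [Algebra k Ω] [IsFunctionField L FC] [IsFunctionField L F₀] {Fb : IntermediateField k Ω}
  [IsFunctionField k Fb] {q : ℕ} {S : Sheet π FC Fb F₀ q} {N : S.Nodes} {F : Type} [Field F]
  [Algebra L F] [Algebra F₀ F] [IsScalarTower L F₀ F]

namespace Cover

variable (C : Cover S N F)

theorem le_resField : Fb ≤ C.resField := fun _ ha =>
  IntermediateField.subset_adjoin k _ (Set.mem_insert_of_mem _ ha)

instance instAlgebraResField : Algebra Fb C.resField :=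
  (IntermediateField.inclusion C.le_resField).toRingHom.toAlgebra

instance instTowerResField : IsScalarTower k Fb C.resField :=
  IsScalarTower.of_algebraMap_eq fun _ => rfl

theorem coe_algebraMap (a : Fb) : ((algebraMap Fb C.resField a : C.resField) : Ω) = (a : Ω) := rfl

/-- The generator of the residues. -/
def gen : C.resField := ⟨C.η, IntermediateField.subset_adjoin k _ (Set.mem_insert _ _)⟩

theorem gen_pow : C.gen ^ C.m = algebraMap Fb C.resField C.ub := Subtype.ext (by
  simpa [gen, coe_algebraMap] using C.η_pow)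

theorem ub_ne : C.ub ≠ 0 := fun h => by
  obtain ⟨v, -, hv⟩ := C.exists_zero
  rw [h, v.ord_zero] at hv
  exact zero_ne_one hv

theorem gen_ne : C.gen ≠ 0 := fun h => C.ub_ne (by
  have := C.gen_pow
  rwa [h, zero_pow C.pos.ne', eq_comm, map_eq_zero] at this)

theorem exists_coord (z : C.resField) :
    ∃ b : Fin C.m → Fb, z = ∑ i : Fin C.m, algebraMap Fb C.resField (b i) * C.gen ^ (i : ℕ) := by
  classical
  have hint : IsIntegral Fb C.η := ⟨X ^ C.m - Polynomial.C C.ub, monic_X_pow_sub_C _ C.pos.ne', by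
    simp [eval₂_sub, C.η_pow]⟩
  have hle : C.resField ≤ (IntermediateField.adjoin Fb {C.η}).restrictScalars k := by
    rw [IntermediateField.adjoin_le_iff]
    rintro a (rfl | ha)
    · exact IntermediateField.mem_adjoin_simple_self Fb _
    · exact (IntermediateField.adjoin Fb {C.η}).algebraMap_mem ⟨a, ha⟩
  have hz : (z : Ω) ∈ (IntermediateField.adjoin Fb {C.η}).toSubalgebra := hle z.2
  rw [IntermediateField.adjoin_simple_toSubalgebra_of_isAlgebraic hint.isAlgebraic,
    Algebra.adjoin_singleton_eq_range_aeval] at hz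
  obtain ⟨p, hp⟩ := hz
  set g : Fb[X] := X ^ C.m - Polynomial.C C.ub with hg
  have hgm : g.Monic := monic_X_pow_sub_C _ C.pos.ne'
  have hdeg : (p %ₘ g).natDegree < C.m := by
    have h1 : g.natDegree = C.m := natDegree_X_pow_sub_C
    have h2 := natDegree_modByMonic_lt p hgm (fun h => by
      rw [h, natDegree_one] at h1; have := C.pos; omega)
    omega
  refine ⟨fun i => (p %ₘ g).coeff i, Subtype.ext ?_⟩
  have hev : aeval C.η g = 0 := by simp [g, C.η_pow]
  have h3 : aeval C.η (p %ₘ g) = (z : Ω) := by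
    rw [← hp]
    conv_rhs => rw [← modByMonic_add_div p g]
    simp [hev]
  rw [← h3, aeval_eq_sum_range' hdeg, ← Fin.sum_univ_eq_sum_range
    (fun i => (p %ₘ g).coeff i • C.η ^ i)]
  simp [gen, coe_algebraMap, Algebra.smul_def]

instance instFiniteResField : Module.Finite Fb C.resField := by
  classical
  refine ⟨⟨Finset.univ.image fun i : Fin C.m => C.gen ^ (i : ℕ), ?_⟩⟩
  refine eq_top_iff.2 fun z _ => ?_
  obtain ⟨b, rfl⟩ := C.exists_coord z
  refine Submodule.sum_mem _ fun i _ => ?_
  rw [← Algebra.smul_def]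
  exact Submodule.smul_mem _ _ (Submodule.subset_span (by simp))

theorem isFunctionField_resField : IsFunctionField k C.resField := by
  set E := C.resField
  obtain ⟨t, ht, hfin⟩ := IsFunctionField.exists_transcendental (K := k) (F := Fb)
  refine IsFunctionField.mk_of (algebraMap Fb E t)
    ((transcendental_algebraMap_iff (algebraMap Fb E).injective).2 ht) ?_
  have hmap : k⟮t⟯.map (IsScalarTower.toAlgHom k Fb E) = k⟮algebraMap Fb E t⟯ := by
    rw [IntermediateField.adjoin_map, Set.image_singleton]; rfl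
  let e : k⟮t⟯ ≃ₐ[k] k⟮algebraMap Fb E t⟯ :=
    (k⟮t⟯.equivMap (IsScalarTower.toAlgHom k Fb E)).trans (IntermediateField.equivOfEq hmap)
  have h1 : Module.finrank k⟮algebraMap Fb E t⟯ E = Module.finrank k⟮t⟯ E :=
    (Algebra.finrank_eq_of_equiv_equiv e.toRingEquiv (RingEquiv.refl E)
      (RingHom.ext fun _ => rfl)).symm
  refine FiniteDimensional.of_finrank_pos ?_
  rw [h1, ← Module.finrank_mul_finrank k⟮t⟯ Fb E]
  exact Nat.mul_pos Module.finrank_pos Module.finrank_pos

/-- The powers of the generator are independent. -/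
theorem indep {b : Fin C.m → Fb}
    (h : ∑ i : Fin C.m, algebraMap Fb C.resField (b i) * C.gen ^ (i : ℕ) = 0) : b = 0 := by
  classical
  haveI := C.isFunctionField_resField
  obtain ⟨v, -, hv⟩ := C.exists_zero
  obtain ⟨w, rfl⟩ := exists_restrict_eq (F' := C.resField) v
  have he := w.ramificationIndex_pos (F := Fb)
  have hgen : (C.m : ℤ) * w.ord C.gen = w.ramificationIndex Fb := by
    rw [← ord_pow, C.gen_pow, w.ord_restrict, hv, mul_one]
  by_contra hb
  obtain ⟨j, hj⟩ := Function.ne_iff.1 hb
  set T := fun i : Fin C.m => algebraMap Fb C.resField (b i) * C.gen ^ (i : ℕ)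
  have hT0 : ∀ i, b i ≠ 0 → T i ≠ 0 := fun i hi =>
    mul_ne_zero ((_root_.map_ne_zero _).2 hi) (pow_ne_zero _ C.gen_ne)
  have hord : ∀ i, b i ≠ 0 → (C.m : ℤ) * w.ord (T i) =
      (w.ramificationIndex Fb : ℤ) * ((C.m : ℤ) * (w.restrict Fb).ord (b i) + (i : ℕ)) := by
    intro i hi
    rw [show T i = algebraMap Fb C.resField (b i) * C.gen ^ (i : ℕ) from rfl,
      w.ord_mul ((_root_.map_ne_zero _).2 hi) (pow_ne_zero _ C.gen_ne), w.ord_restrict, ord_pow]
    linear_combination (i : ℕ) * hgen
  obtain ⟨i₀, hi₀, hmin⟩ := Finset.exists_min_image (Finset.univ.filter fun i => b i ≠ 0)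
    (fun i => w.ord (T i)) ⟨j, by simpa using hj⟩
  rw [Finset.mem_filter] at hi₀
  have hrest : OrdGE w (w.ord (T i₀) + 1) (∑ i ∈ Finset.univ.erase i₀, T i) := by
    refine OrdGE.sum fun i hi => ?_
    rw [Finset.mem_erase] at hi
    by_cases hbi : b i = 0
    · simp [T, hbi, ordGE_zero]
    refine ordGE_of_le ?_
    have h1 := hmin i (by simpa using hbi)
    rcases h1.lt_or_eq with h2 | h2
    · omega
    exfalso
    have h3 := hord i hbi
    rw [← h2, hord i₀ hi₀.2] at h3
    have h4 := mul_left_cancel₀ (by exact_mod_cast he.ne') h3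
    have h5 : (((i₀ : ℕ) : ℤ) - (i : ℕ)) = (C.m : ℤ) *
        ((w.restrict Fb).ord (b i) - (w.restrict Fb).ord (b i₀)) := by linear_combination h4
    have h6 := Int.eq_zero_of_abs_lt_dvd ⟨_, h5⟩ (abs_lt.2
      ⟨by have := i.2; omega, by have := i₀.2; omega⟩)
    exact hi.1 (Fin.ext (by omega))
  have hsum : T i₀ = -∑ i ∈ Finset.univ.erase i₀, T i :=
    eq_neg_of_add_eq_zero_left (by rwa [Finset.add_sum_erase _ _ (Finset.mem_univ i₀)])
  have h4 := hrest.neg.le_ord (hsum ▸ hT0 i₀ hi₀.2)
  rw [← hsum] at h4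
  omega

/-- The basis of powers. -/
def basis : Module.Basis (Fin C.m) Fb C.resField :=
  Module.Basis.mk (v := fun i => C.gen ^ (i : ℕ))
    (Fintype.linearIndependent_iff.2 fun g hg => congrFun (C.indep (b := g) (by
      simpa only [Algebra.smul_def] using hg)))
    (fun z _ => by
      obtain ⟨b, rfl⟩ := C.exists_coord z
      refine Submodule.sum_mem _ fun i _ => ?_
      rw [← Algebra.smul_def]
      exact Submodule.smul_mem _ _ (Submodule.subset_span (Set.mem_range_self i)))

theorem basis_apply (i : Fin C.m) : C.basis i = C.gen ^ (i : ℕ) := by simp [basis]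

/-- The radical basis of the residues. -/
def radGen : Rad.Gen Fb C.resField := ⟨C.m, C.pos, C.gen, C.ub, C.ub_ne, C.gen_pow, C.basis,
  C.basis_apply⟩

end Cover

end FLTAgent.Lowering.P3
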