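import Fermat.Agent.Lowering.P3.Interface

/-!
# Radical extensions of function fields: components and their Riemann–Roch spaces
-/

set_option autoImplicit false
set_option linter.style.haveILetI false
set_option linter.unusedSectionVars false
set_option synthInstance.maxHeartbeats 400000

noncomputable section

namespace FLTAgent.Lowering.P3.Rad

open AlgebraicCurve FLTAgent.Curves FLTAgent.Specialization FLTAgent.BadRed Polynomial
  IntermediateField

variable {K : Type} [Field K] [IsAlgClosed K] {F F' : Type} [Field F] [Field F'] [Algebra K F]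
  [Algebra F F'] [Algebra K F'] [IsScalarTower K F F'] [IsFunctionField K F]
  [IsFunctionField K F'] [FiniteDimensional F F']

/-- One `m`-th of a divisor, rounded down. -/
def floorDiv (m : ℕ) (D : Divisor K F) : Divisor K F :=
  D.mapRange (fun e => e / (m : ℤ)) (Int.zero_ediv _)

theorem floorDiv_apply (m : ℕ) (D : Divisor K F) (v : Place K F) :
    floorDiv m D v = D v / (m : ℤ) := Finsupp.mapRange_apply ..

/-- The coefficients of the `i`-th power of an `m`-th root of `u` in `L(M · poles)`. -/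
def space (x u : F) (m i M : ℕ) : Submodule K F :=
  riemannRochSpace ((M : ℤ) • poleDiv K x + floorDiv m ((i : ℤ) • divOf K u))

theorem mem_space {x u : F} {m i M : ℕ} (hm : 0 < m) (hu : u ≠ 0) {b : F} :
    b ∈ space (K := K) x u m i M ↔
      b ^ m * u ^ i ∈ riemannRochSpace (((m * M : ℕ) : ℤ) • poleDiv K x) := by
  rcases eq_or_ne b 0 with rfl | hb
  · simp [zero_pow hm.ne']
  rw [space, mem_rrSpace, mem_rrSpace]
  refine forall_congr' fun v => ?_
  rw [ordGE_iff_of_ne hb, ordGE_iff_of_ne (mul_ne_zero (pow_ne_zero _ hb) (pow_ne_zero _ hu)),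
    v.ord_mul (pow_ne_zero _ hb) (pow_ne_zero _ hu), ord_pow, ord_pow, Finsupp.add_apply,
    Finsupp.smul_apply, Finsupp.smul_apply, floorDiv_apply, Finsupp.smul_apply, divOf_apply,
    smul_eq_mul, smul_eq_mul, smul_eq_mul]
  have hm' : (0 : ℤ) < m := Int.natCast_pos.2 hm
  have key := Int.le_ediv_iff_mul_le (a := -(M : ℤ) * poleDiv K x v - v.ord b)
    (b := (i : ℤ) * v.ord u) hm'
  push_cast
  constructor
  · intro h
    have := key.1 (by linarith)
    linarith
  · intro h
    have := key.2 (by linarith)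
    linarith

theorem finrank_space {x u : F} {m i M : ℕ} (hx : Transcendental K x)
    (hM : rBound K F + |Divisor.degree (floorDiv m ((i : ℤ) • divOf K u))| ≤ M) :
    (Module.finrank K (space (K := K) x u m i M) : ℤ) =
      Module.finrank K (riemannRochSpace ((M : ℤ) • poleDiv K x)) +
        Divisor.degree (floorDiv m ((i : ℤ) • divOf K u)) := by
  set δ := Divisor.degree (floorDiv m ((i : ℤ) • divOf K u)) with hδ
  have h1 := le_degree_poles (K := K) hx hM
  have h2 := abs_nonneg δ
  have h3 := neg_abs_le δ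
  have e1 := ell_eq (K := K) (F := F) (G := (M : ℤ) • poleDiv K x) (by omega)
  have e2 := ell_eq (K := K) (F := F)
    (G := (M : ℤ) • poleDiv K x + floorDiv m ((i : ℤ) • divOf K u))
    (by rw [map_add, ← hδ]; omega)
  rw [map_add, ← hδ] at e2
  rw [ell] at e1 e2
  rw [space, e2, e1]
  ring

/-- Complementary roundings lose one at every place where the exponent is not divisible. -/
theorem degree_floorDiv_pair {u e : F} {m i : ℕ} (hm : 0 < m) (hu : u ≠ 0) (he : e ≠ 0)
    (Z : Finset (Place K F)) (hZ : ∀ v ∈ Z, v.ord u = 1) (hi : 0 < i) (him : i < m) :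
    Divisor.degree (floorDiv m ((i : ℤ) • divOf K u)) +
      Divisor.degree (floorDiv m ((i : ℤ) • divOf K (e ^ m / u))) ≤ -(Z.card : ℤ) := by
  classical
  have hm' : (m : ℤ) ≠ 0 := by exact_mod_cast hm.ne'
  have hmp : (0 : ℤ) < m := Int.natCast_pos.2 hm
  have hle : floorDiv m ((i : ℤ) • divOf K u) + floorDiv m ((i : ℤ) • divOf K (e ^ m / u)) +
      (∑ v ∈ Z, Finsupp.single v (1 : ℤ) : Divisor K F) ≤ (i : ℤ) • divOf K e := by
    intro v
    simp only [Finsupp.add_apply, floorDiv_apply, Finsupp.smul_apply, divOf_apply, smul_eq_mul,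
      Finsupp.finsetSum_apply, Finsupp.single_apply, Finset.sum_ite_eq']
    rw [ord_div v (pow_ne_zero _ he) hu, ord_pow,
      show (i : ℤ) * ((m : ℤ) * v.ord e - v.ord u) = -((i : ℤ) * v.ord u) + (m : ℤ) * ((i : ℤ) * v.ord e)
        by ring, Int.add_mul_ediv_left _ _ hm']
    set a := (i : ℤ) * v.ord u with ha
    have h1 := Int.ediv_mul_le a hm'
    have h2 := Int.ediv_mul_le (-a) hm'
    by_cases hv : v ∈ Z
    · rw [if_pos hv]
      have ha' : a = (i : ℤ) := by rw [ha, hZ v hv, mul_one]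
      have h3 : a / (m : ℤ) = 0 := Int.ediv_eq_zero_of_lt (by omega) (by omega)
      have h4 : -a / (m : ℤ) ≤ -1 := by
        by_contra hc
        have : 0 ≤ (-a / (m : ℤ)) * (m : ℤ) := mul_nonneg (by omega) hmp.le
        omega
      omega
    · rw [if_neg hv]
      have : a / (m : ℤ) + -a / (m : ℤ) ≤ 0 := by nlinarith
      omega
  have h := degree_mono hle
  rw [map_add, map_add, map_zsmul, degree_divOf, smul_zero, map_sum] at h
  simp only [degree_single', Finset.sum_const, nsmul_eq_mul, mul_one] at h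
  linarith

theorem poles_algebraMap {x f : F} {M : ℕ} :
    algebraMap F F' f ∈ riemannRochSpace ((M : ℤ) • poleDiv K (algebraMap F F' x)) ↔
      f ∈ riemannRochSpace ((M : ℤ) • poleDiv K x) := by
  rcases eq_or_ne f 0 with rfl | hf
  · simp
  rw [mem_rrSpace, mem_rrSpace]
  simp only [Finsupp.smul_apply, smul_eq_mul, poleDiv_apply]
  constructor
  · intro h v
    obtain ⟨w, rfl⟩ := exists_restrict_eq (F' := F') v
    have h1 := (h w).le_ord ((_root_.map_ne_zero _).2 hf)
    have he : (0 : ℤ) < w.ramificationIndex F := Int.natCast_pos.2 w.ramificationIndex_pos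
    rw [w.ord_restrict, w.ord_restrict,
      show max (-((w.ramificationIndex F : ℤ) * (w.restrict F).ord x)) 0 =
        (w.ramificationIndex F : ℤ) * max (-(w.restrict F).ord x) 0 by
          rw [mul_max_of_nonneg _ _ he.le, mul_zero, mul_neg]] at h1
    refine ordGE_of_le (le_of_mul_le_mul_left (le_trans (le_of_eq ?_) h1) he)
    ring
  · intro h w
    have h1 := (h (w.restrict F)).le_ord hf
    have he : (0 : ℤ) ≤ w.ramificationIndex F := Int.natCast_nonneg _
    refine ordGE_of_le ?_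
    rw [w.ord_restrict, w.ord_restrict,
      show max (-((w.ramificationIndex F : ℤ) * (w.restrict F).ord x)) 0 =
        (w.ramificationIndex F : ℤ) * max (-(w.restrict F).ord x) 0 by
          rw [mul_max_of_nonneg _ _ he, mul_zero, mul_neg]]
    exact le_trans (le_of_eq (by ring)) (mul_le_mul_of_nonneg_left h1 he)

theorem poles_of_pow {x f : F} {m M : ℕ} (hm : 0 < m) :
    f ^ m ∈ riemannRochSpace (((m * M : ℕ) : ℤ) • poleDiv K x) ↔
      f ∈ riemannRochSpace ((M : ℤ) • poleDiv K x) := by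
  rcases eq_or_ne f 0 with rfl | hf
  · simp [zero_pow hm.ne']
  rw [mem_rrSpace, mem_rrSpace]
  refine forall_congr' fun v => ?_
  rw [ordGE_iff_of_ne hf, ordGE_iff_of_ne (pow_ne_zero _ hf), ord_pow, Finsupp.smul_apply,
    Finsupp.smul_apply, smul_eq_mul, smul_eq_mul]
  push_cast
  rw [show -((m : ℤ) * M * poleDiv K x v) = (m : ℤ) * -(M * poleDiv K x v) by ring]
  exact ⟨fun h => le_of_mul_le_mul_left h (Int.natCast_pos.2 hm),
    fun h => mul_le_mul_of_nonneg_left h (Int.natCast_nonneg _)⟩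

/-- A radical basis. -/
structure Gen (F F' : Type) [Field F] [Field F'] [Algebra F F'] where
  m : ℕ
  pos : 0 < m
  y : F'
  u : F
  u_ne : u ≠ 0
  y_pow : y ^ m = algebraMap F F' u
  basis : Module.Basis (Fin m) F F'
  basis_eq : ∀ i, basis i = y ^ (i : ℕ)

namespace Gen

variable (G : Gen F F')

/-- The power basis. -/
def pb : PowerBasis F F' := ⟨G.y, G.m, G.basis, G.basis_eq⟩

theorem y_ne : G.y ≠ 0 := fun h => G.u_ne (by
  have := G.y_pow
  rwa [h, zero_pow G.pos.ne', eq_comm, map_eq_zero] at this)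

theorem minpoly_eq : minpoly F G.y = X ^ G.m - C G.u := by
  have hint : IsIntegral F G.y := Algebra.IsIntegral.isIntegral _
  refine (eq_of_monic_of_dvd_of_natDegree_le (minpoly.monic hint)
    (monic_X_pow_sub_C _ G.pos.ne') (minpoly.dvd _ _ (by simp [G.y_pow])) ?_).symm
  rw [natDegree_X_pow_sub_C]
  exact le_of_eq G.pb.natDegree_minpoly.symm

theorem root {ζ : K} (hζ : ζ ^ G.m = 1) :
    aeval (algebraMap K F' ζ * G.y) (minpoly F G.pb.gen) = 0 := by
  show aeval _ (minpoly F G.y) = 0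
  rw [G.minpoly_eq, map_sub, map_pow, aeval_X, aeval_C, mul_pow, G.y_pow, ← map_pow, hζ, map_one,
    one_mul, sub_self]

/-- Multiplication of the generator by a root of unity. -/
def aut {ζ : K} (hζ : ζ ^ G.m = 1) : F' ≃ₐ[F] F' :=
  AlgEquiv.ofBijective (G.pb.lift (algebraMap K F' ζ * G.y) (G.root hζ)) (AlgHom.bijective _)

theorem aut_y {ζ : K} (hζ : ζ ^ G.m = 1) : G.aut hζ G.y = algebraMap K F' ζ * G.y :=
  G.pb.lift_gen _ (G.root hζ)

theorem aut_sum {ζ : K} (hζ : ζ ^ G.m = 1) (a : Fin G.m → F) :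
    G.aut hζ (∑ j : Fin G.m, algebraMap F F' (a j) * G.y ^ (j : ℕ)) =
      ∑ j : Fin G.m, ζ ^ (j : ℕ) • (algebraMap F F' (a j) * G.y ^ (j : ℕ)) := by
  rw [map_sum]
  refine Finset.sum_congr rfl fun j _ => ?_
  rw [map_mul, AlgEquiv.commutes, map_pow, G.aut_y, mul_pow, Algebra.smul_def, map_pow]
  ring

theorem poles_aut {ζ : K} (hζ : ζ ^ G.m = 1) {x : F} {f : F'} {M : ℕ}
    (h : f ∈ riemannRochSpace ((M : ℤ) • poleDiv K (algebraMap F F' x))) :
    G.aut hζ f ∈ riemannRochSpace ((M : ℤ) • poleDiv K (algebraMap F F' x)) := by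
  rcases eq_or_ne f 0 with rfl | hf
  · rw [map_zero]; exact Submodule.zero_mem _
  set σ : F' ≃ₐ[K] F' := (G.aut hζ).restrictScalars K with hσ
  refine mem_rrSpace.2 fun w => ?_
  have h1 := (mem_rrSpace.1 h (σ⁻¹ • w)).le_ord hf
  have e1 := Place.ord_smul σ (σ⁻¹ • w) f
  have e2 := Place.ord_smul σ (σ⁻¹ • w) (algebraMap F F' x)
  rw [smul_inv_smul] at e1 e2
  rw [show σ (algebraMap F F' x) = algebraMap F F' x from (G.aut hζ).commutes x] at e2
  rw [Finsupp.smul_apply, smul_eq_mul, poleDiv_apply] at h1 ⊢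
  refine ordGE_of_le ?_
  show _ ≤ w.ord (σ f)
  rw [e1, e2]
  exact h1

theorem sum_mem {x : F} {M : ℕ} {a : Fin G.m → F}
    (h : ∀ i : Fin G.m, a i ∈ space (K := K) x G.u G.m i M) :
    (∑ j : Fin G.m, algebraMap F F' (a j) * G.y ^ (j : ℕ)) ∈
      riemannRochSpace ((M : ℤ) • poleDiv K (algebraMap F F' x)) := by
  refine Submodule.sum_mem _ fun j _ => ?_
  have := poles_algebraMap (F' := F').2 ((mem_space G.pos G.u_ne).1 (h j))
  rw [← poles_of_pow G.pos, mul_pow, ← pow_mul, mul_comm (j : ℕ) G.m, pow_mul, G.y_pow]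
  simpa using this

theorem comp_mem (hm : (G.m : K) ≠ 0) {x : F} {M : ℕ} {a : Fin G.m → F}
    (h : (∑ j : Fin G.m, algebraMap F F' (a j) * G.y ^ (j : ℕ)) ∈
      riemannRochSpace ((M : ℤ) • poleDiv K (algebraMap F F' x))) (i : Fin G.m) :
    a i ∈ space (K := K) x G.u G.m i M := by
  haveI : NeZero (G.m : K) := ⟨hm⟩
  obtain ⟨ζ, hζ⟩ := HasEnoughRootsOfUnity.exists_primitiveRoot K G.m
  have hpow : ∀ r : ℕ, (ζ ^ r) ^ G.m = 1 := fun r => by
    rw [← pow_mul, mul_comm, pow_mul, hζ.pow_eq_one, one_pow]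
  set T := fun j : Fin G.m => algebraMap F F' (a j) * G.y ^ (j : ℕ)
  have hsum : ∑ r ∈ Finset.range G.m, ζ ^ (r * (G.m - i)) • G.aut (hpow r) (∑ j, T j) =
      (G.m : K) • T i := by
    simp only [T, G.aut_sum, Finset.smul_sum, smul_smul]
    rw [Finset.sum_comm, Finset.sum_eq_single i]
    · rw [← Finset.sum_smul]
      congr 1
      rw [Finset.sum_congr rfl fun r _ => show ζ ^ (r * (G.m - i)) * (ζ ^ r) ^ (i : ℕ) = 1 by
        rw [← pow_mul, ← pow_add, ← mul_add, Nat.sub_add_cancel i.2.le, pow_mul, hpow]]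
      simp
    · intro j _ hj
      rw [← Finset.sum_smul]
      refine smul_eq_zero_of_left ?_ _
      have hω : ζ ^ (G.m - i + j) ≠ 1 := by
        rw [Ne, hζ.pow_eq_one_iff_dvd]
        intro hd
        have h1 := i.2
        have h2 := j.2
        have hji : (j : ℕ) ≠ i := fun h => hj (Fin.ext h)
        obtain ⟨c, hc⟩ := hd
        rcases Nat.lt_trichotomy c 1 with hc1 | rfl | hc1
        · obtain rfl : c = 0 := by omega
          omega
        · omega
        · have : G.m * 2 ≤ G.m * c := Nat.mul_le_mul_left _ hc1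
          omega
      rw [Finset.sum_congr rfl fun r _ =>
        show ζ ^ (r * (G.m - i)) * (ζ ^ r) ^ (j : ℕ) = (ζ ^ (G.m - i + j)) ^ r by
          rw [← pow_mul, ← pow_mul, ← pow_add]; congr 1; ring,
        geom_sum_eq hω, ← pow_mul, mul_comm, pow_mul, hζ.pow_eq_one, one_pow, sub_self, zero_div]
    · simp
  have hT : T i ∈ riemannRochSpace ((M : ℤ) • poleDiv K (algebraMap F F' x)) := by
    have : (G.m : K) • T i ∈ riemannRochSpace ((M : ℤ) • poleDiv K (algebraMap F F' x)) := by
      rw [← hsum]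
      exact Submodule.sum_mem _ fun r _ => Submodule.smul_mem _ _ (G.poles_aut (hpow r) h)
    simpa [smul_smul, inv_mul_cancel₀ hm] using Submodule.smul_mem _ (G.m : K)⁻¹ this
  rw [mem_space G.pos G.u_ne]
  refine poles_algebraMap (F' := F').1 ?_
  rw [← poles_of_pow G.pos] at hT
  simp only [T, mul_pow, ← pow_mul] at hT
  rw [mul_comm (i : ℕ) G.m, pow_mul, G.y_pow] at hT
  simpa using hT

end Gen

end FLTAgent.Lowering.P3.Rad
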