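import Fermat.Agent.Lowering.P3.Cover.Field
import Fermat.Agent.Lowering.P3.Cover.Components

/-!
# The reductions of a cover in components
-/

set_option autoImplicit false
set_option linter.style.haveILetI false
set_option linter.unusedSectionVars false
set_option synthInstance.maxHeartbeats 400000
set_option maxHeartbeats 800000

noncomputable section

namespace FLTAgent.Lowering.P3

open AlgebraicCurve FLTAgent.Curves FLTAgent.Specialization FLTAgent.BadRed Polynomial
  IntermediateField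

variable {L k : Type} [Field L] [Field k] [IsAlgClosed L] [IsAlgClosed k] {A : ValuationSubring L}
  {π : A →+* k} {FC F₀ Ω : Type} [Field FC] [Field F₀] [Field Ω] [Algebra L FC] [Algebra L F₀]
  [Algebra k Ω] [IsFunctionField L FC] [IsFunctionField L F₀] {Fb : IntermediateField k Ω}
  [IsFunctionField k Fb] {q : ℕ} {S : Sheet π FC Fb F₀ q} {N : S.Nodes} {F : Type} [Field F]
  [Algebra L F] [Algebra F₀ F] [IsScalarTower L F₀ F]

namespace Cover

variable (C : Cover S N F)

/-- The residue of the scaled generator on the second sheet. -/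
def theta : C.resField := algebraMap Fb C.resField C.e / C.gen

theorem coe_theta : (C.theta : Ω) = (C.e : Ω) / C.η := by
  simp [theta, gen, coe_algebraMap]

/-- The `i`-th component of the cover. -/
def vMap (i : ℕ) : F₀ →ₗ[L] F :=
  (LinearMap.mulRight L (C.x ^ i)).comp (IsScalarTower.toAlgHom L F₀ F).toLinearMap

theorem vMap_apply (i : ℕ) (a : F₀) : C.vMap i a = algebraMap F₀ F a * C.x ^ i := rfl

/-- A component of the residues. -/
def wMap (y : C.resField) (i : ℕ) : Fb →ₗ[k] C.resField :=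
  (LinearMap.mulRight k (y ^ i)).comp (IsScalarTower.toAlgHom k Fb C.resField).toLinearMap

theorem wMap_apply (y : C.resField) (i : ℕ) (b : Fb) :
    C.wMap y i b = algebraMap Fb C.resField b * y ^ i := rfl

/-- A component of the residues in the ambient field. -/
def wAmb (y : C.resField) (i : ℕ) : Fb →ₗ[k] Ω :=
  (IntermediateField.val C.resField).toLinearMap.comp (C.wMap y i)

theorem wAmb_apply (y : C.resField) (i : ℕ) (b : Fb) :
    C.wAmb y i b = ((C.wMap y i b : C.resField) : Ω) := rfl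

theorem res₁_comp (i : ℕ) {a : F₀} {b : Fb} (h : S.R₁.Res a b) :
    C.Q₁.Res (C.vMap i a) ((C.wMap C.gen i b : C.resField) : Ω) := by
  simpa [vMap_apply, wMap_apply, coe_algebraMap, gen] using (C.ext₁ a b h).mul (C.res₁.pow i)

theorem res₂_comp (i : ℕ) {a : F₀} {b : Fb} (h : S.R₂.Res ((C.c⁻¹ ^ i) • a) b) :
    C.Q₂.Res (C.vMap i a) ((C.wMap C.theta i b : C.resField) : Ω) := by
  have h1 := (C.ext₂ _ b h).mul (C.res₂.pow i)
  have e : algebraMap F₀ F ((C.c⁻¹ ^ i) • a) * (C.c • C.x) ^ i = C.vMap i a := by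
    rw [vMap_apply, Algebra.smul_def, Algebra.smul_def, map_mul,
      ← IsScalarTower.algebraMap_apply, mul_pow, map_pow, mul_mul_mul_comm,
      mul_comm (algebraMap F₀ F a), ← mul_assoc, ← mul_pow, ← map_mul, inv_mul_cancel₀ C.c_ne,
      map_one, one_pow, one_mul, mul_comm]
  rw [e] at h1
  simpa [wMap_apply, coe_algebraMap, coe_theta] using h1

theorem indep_gen (b : Fin C.m → Fb) (h : ∑ i : Fin C.m, C.wMap C.gen i (b i) = 0) : b = 0 :=
  C.indep (by simpa [wMap_apply] using h)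

theorem indep_theta (b : Fin C.m → Fb) (h : ∑ i : Fin C.m, C.wMap C.theta i (b i) = 0) : b = 0 := by
  have hm := C.pos
  have hg := C.gen_ne
  have key : ∀ i : Fin C.m, C.wMap C.theta i (b i) * C.gen ^ (C.m - 1) =
      algebraMap Fb C.resField (b i * C.e ^ (i : ℕ)) * C.gen ^ ((i.rev : Fin C.m) : ℕ) := fun i => by
    have hi : C.m - 1 = (i : ℕ) + ((i.rev : Fin C.m) : ℕ) := by
      rw [Fin.val_rev]; have := i.2; omega
    rw [wMap_apply, theta, hi, pow_add, div_pow, map_mul, map_pow]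
    field_simp
  have h1 : ∑ i : Fin C.m, algebraMap Fb C.resField (b i.rev * C.e ^ ((i.rev : Fin C.m) : ℕ)) *
      C.gen ^ (i : ℕ) = 0 := by
    have h2 : ∑ i : Fin C.m, C.wMap C.theta i (b i) * C.gen ^ (C.m - 1) = 0 := by
      rw [← Finset.sum_mul, h, zero_mul]
    rw [Finset.sum_congr rfl fun i _ => key i] at h2
    rw [← h2]
    exact Fintype.sum_equiv Fin.revPerm _ _ fun i => by simp
  funext i
  have h3 := congrFun (C.indep h1) i.rev
  simpa [C.e_ne] using h3

theorem indep_amb {y : C.resField} (hy : ∀ b : Fin C.m → Fb, ∑ i : Fin C.m, C.wMap y i (b i) = 0 → b = 0)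
    (b : Fin C.m → Fb) (h : ∑ i : Fin C.m, C.wAmb y i (b i) = 0) : b = 0 :=
  hy b (Subtype.ext (by simpa [wAmb_apply] using h))

theorem scale_one (_i : Fin C.m) (a : F₀) (ha : a ≠ 0) : ∃ (c : L) (b : Fb), b ≠ 0 ∧
    (Comp.twistLin S.R₁ 1).Res (c • a) b :=
  Comp.twistLin_scale S.scaled₁ one_ne_zero a ha

theorem scale_two (i : Fin C.m) (a : F₀) (ha : a ≠ 0) : ∃ (c : L) (b : Fb), b ≠ 0 ∧
    (Comp.twistLin S.R₂ (C.c⁻¹ ^ (i : ℕ))).Res (c • a) b :=
  Comp.twistLin_scale S.scaled₂ (pow_ne_zero _ (inv_ne_zero C.c_ne)) a ha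

theorem amb₁ (i : Fin C.m) (a : F₀) (b : Fb) (h : (Comp.twistLin S.R₁ 1).Res a b) :
    (Comp.twistLin C.Q₁ 1).Res (C.vMap i a) (C.wAmb C.gen i b) := by
  change C.Q₁.Res ((1 : L) • C.vMap i a) _
  change S.R₁.Res ((1 : L) • a) b at h
  rw [one_smul] at h ⊢
  exact C.res₁_comp i h

theorem amb₂ (i : Fin C.m) (a : F₀) (b : Fb)
    (h : (Comp.twistLin S.R₂ (C.c⁻¹ ^ (i : ℕ))).Res a b) :
    (Comp.twistLin C.Q₂ 1).Res (C.vMap i a) (C.wAmb C.theta i b) := by
  change C.Q₂.Res ((1 : L) • C.vMap i a) _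
  rw [one_smul]
  exact C.res₂_comp i h

theorem x_ne : C.x ≠ 0 := fun h => by
  have h1 := C.res₁
  rw [h] at h1
  exact C.gen_ne (Subtype.ext (h1.unique C.Q₁.res_zero))

theorem U_ne : C.U ≠ 0 := fun h => pow_ne_zero C.m C.x_ne (by rw [C.x_pow, h, map_zero])

theorem finiteDimensional_cover (C : Cover S N F) : FiniteDimensional F₀ F :=
  FiniteDimensional.of_finrank_pos (by rw [C.finrank_eq]; exact C.pos)

theorem indep_F {a : Fin C.m → F₀} (h : ∑ i : Fin C.m, C.vMap i (a i) = 0) : a = 0 :=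
  Comp.indep S.MC.surj (fun i => C.amb₁ i) (C.indep_amb C.indep_gen)
    (fun i => C.scale_one i) h

/-- The basis of powers upstairs. -/
def basisF : Module.Basis (Fin C.m) F₀ F :=
  haveI : Nonempty (Fin C.m) := ⟨⟨0, C.pos⟩⟩
  basisOfLinearIndependentOfCardEqFinrank (b := fun i : Fin C.m => C.x ^ (i : ℕ))
    (Fintype.linearIndependent_iff.2 fun g hg => congrFun (C.indep_F (a := g) (by
      simpa only [vMap_apply, Algebra.smul_def] using hg)))
    (by rw [Fintype.card_fin, C.finrank_eq])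

theorem basisF_apply (i : Fin C.m) : C.basisF i = C.x ^ (i : ℕ) := by simp [basisF]

theorem exists_coordF (f : F) : ∃ a : Fin C.m → F₀, f = ∑ i : Fin C.m, C.vMap i (a i) :=
  ⟨fun i => C.basisF.repr f i, by
    conv_lhs => rw [← C.basisF.sum_repr f]
    simp only [basisF_apply, vMap_apply, Algebra.smul_def]⟩

/-- The radical basis upstairs. -/
def radGenF : Rad.Gen F₀ F := ⟨C.m, C.pos, C.x, C.U, C.U_ne, C.x_pow, C.basisF, C.basisF_apply⟩

theorem mem_res₁ (f : F) (g : Ω) (h : C.Q₁.Res f g) : g ∈ C.resField := by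
  obtain ⟨a, rfl⟩ := C.exists_coordF f
  obtain ⟨b, -, rfl⟩ := Comp.comp_res S.MC.surj (fun i => C.amb₁ i) (C.indep_amb C.indep_gen)
    (fun i => C.scale_one i) (R := Comp.twistLin C.Q₁ 1) (g := g) (by
      show C.Q₁.Res ((1 : L) • _) g
      rwa [one_smul])
  exact sum_mem fun i _ => (C.wMap C.gen i (b i)).2

theorem mem_res₂ (f : F) (g : Ω) (h : C.Q₂.Res f g) : g ∈ C.resField := by
  obtain ⟨a, rfl⟩ := C.exists_coordF f
  obtain ⟨b, -, rfl⟩ := Comp.comp_res S.MC.surj (fun i => C.amb₂ i) (C.indep_amb C.indep_theta)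
    (fun i => C.scale_two i) (R := Comp.twistLin C.Q₂ 1) (g := g) (by
      show C.Q₂.Res ((1 : L) • _) g
      rwa [one_smul])
  exact sum_mem fun i _ => (C.wMap C.theta i (b i)).2

/-- The first reduction into the field of residues. -/
def red₁ : Reduction π F C.resField := Comp.restrictRed C.Q₁ C.resField C.mem_res₁

/-- The second reduction into the field of residues. -/
def red₂ : Reduction π F C.resField := Comp.restrictRed C.Q₂ C.resField C.mem_res₂

theorem red₁_res {f : F} {g : C.resField} : C.red₁.Res f g ↔ C.Q₁.Res f (g : Ω) :=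
  Comp.restrictRed_res _

theorem red₂_res {f : F} {g : C.resField} : C.red₂.Res f g ↔ C.Q₂.Res f (g : Ω) :=
  Comp.restrictRed_res _

theorem red₁_scaled : C.red₁.Scaled := by
  intro f hf
  obtain ⟨a, rfl⟩ := C.exists_coordF f
  have ha : a ≠ 0 := fun h => hf (by simp [h])
  obtain ⟨c, b, hb, hres⟩ := Comp.exists_scale S.MC.surj (fun i => C.scale_one i) ha
  refine ⟨c, ∑ i : Fin C.m, C.wMap C.gen i (b i), fun h => hb (C.indep_gen b h), ?_⟩
  rw [red₁_res, Finset.smul_sum, IntermediateField.coe_sum]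
  refine Reduction.Res.sum fun i _ => ?_
  have := hres i
  change S.R₁.Res ((1 : L) • c • a i) (b i) at this
  rw [one_smul] at this
  rw [← map_smul]
  exact C.res₁_comp i this

theorem red₂_scaled : C.red₂.Scaled := by
  intro f hf
  obtain ⟨a, rfl⟩ := C.exists_coordF f
  have ha : a ≠ 0 := fun h => hf (by simp [h])
  obtain ⟨c, b, hb, hres⟩ := Comp.exists_scale S.MC.surj (fun i => C.scale_two i) ha
  refine ⟨c, ∑ i : Fin C.m, C.wMap C.theta i (b i), fun h => hb (C.indep_theta b h), ?_⟩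
  rw [red₂_res, Finset.smul_sum, IntermediateField.coe_sum]
  refine Reduction.Res.sum fun i _ => ?_
  rw [← map_smul]
  exact C.res₂_comp i (hres i)

/-- A component of pairs of residues. -/
def wPair (i : ℕ) : Fb × Fb →ₗ[k] C.resField × C.resField :=
  (C.wMap C.gen i).prodMap (C.wMap C.theta i)

theorem wPair_apply (i : ℕ) (b : Fb × Fb) :
    C.wPair i b = (C.wMap C.gen i b.1, C.wMap C.theta i b.2) := rfl

theorem pair_comp (d : L) (i : ℕ) (a : F₀) (b : Fb × Fb)
    (h : (S.pair (d * C.c⁻¹ ^ i)).Res a b) :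
    (pairRed C.red₁ C.red₂ d).Res (C.vMap i a) (C.wPair i b) := by
  refine ⟨C.red₁_res.2 (C.res₁_comp i h.1), C.red₂_res.2 ?_⟩
  rw [← map_smul]
  refine C.res₂_comp i ?_
  rw [smul_smul, mul_comm]
  exact h.2

theorem indep_pair (b : Fin C.m → Fb × Fb) (h : ∑ i : Fin C.m, C.wPair i (b i) = 0) : b = 0 := by
  simp only [wPair_apply, Prod.ext_iff, Prod.fst_sum, Prod.snd_sum, Prod.fst_zero, Prod.snd_zero]
    at h
  have h1 := C.indep_gen (fun i => (b i).1) h.1
  have h2 := C.indep_theta (fun i => (b i).2) h.2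
  exact funext fun i => Prod.ext (congrFun h1 i) (congrFun h2 i)

theorem scale_pair {d : L} (hd : d ≠ 0) (i : Fin C.m) (a : F₀) (ha : a ≠ 0) :
    ∃ (c : L) (b : Fb × Fb), b ≠ 0 ∧ (S.pair (d * C.c⁻¹ ^ (i : ℕ))).Res (c • a) b :=
  LRed.exists_scale (S.orth (mul_ne_zero hd (pow_ne_zero _ (inv_ne_zero C.c_ne)))) S.MC.surj ha

theorem pair_comp_res {d : L} (hd : d ≠ 0) {a : Fin C.m → F₀} {g : C.resField × C.resField}
    (h : (pairRed C.red₁ C.red₂ d).Res (∑ i : Fin C.m, C.vMap i (a i)) g) :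
    ∃ b : Fin C.m → Fb × Fb, (∀ i : Fin C.m, (S.pair (d * C.c⁻¹ ^ (i : ℕ))).Res (a i) (b i)) ∧
      g = ∑ i : Fin C.m, C.wPair i (b i) :=
  Comp.comp_res S.MC.surj (fun i : Fin C.m => C.pair_comp d i) C.indep_pair (fun i => C.scale_pair hd i) h

theorem pair_orth {d : L} (hd : d ≠ 0) : (pairRed C.red₁ C.red₂ d).Orth :=
  Comp.orth S.MC.surj (fun i : Fin C.m => C.pair_comp d i) C.indep_pair
    (fun i => C.scale_pair hd i)
    (fun i => S.orth (mul_ne_zero hd (pow_ne_zero _ (inv_ne_zero C.c_ne)))) C.exists_coordF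

end Cover

end FLTAgent.Lowering.P3
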