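import Fermat.Agent.Lowering.P3.Cover.Sheets
import Fermat.Agent.BadRed.Gluing

/-!
# The two sheet of a cover: spaces, zeros of the branch function
-/

set_option autoImplicit false
set_option linter.style.haveILetI false
set_option linter.unusedSectionVars false
set_option synthInstance.maxHeartbeats 400000
set_option maxHeartbeats 800000

noncomputable section

namespace FLTAgent.Lowering.P3

open AlgebraicCurve FLTAgent.Curves FLTAgent.Specialization FLTAgent.BadRed Polynomial
  IntermediateField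

variable {L k : Type} [Field L] [Field k] [IsAlgClosed L] [IsAlgClosed k] {A : ValuationSubring L}
  {π : A →+* k} {FC F₀ Ω : Type} [Field FC] [Field F₀] [Field Ω] [Algebra L FC] [Algebra L F₀]
  [Algebra k Ω] [IsFunctionField L FC] [IsFunctionField L F₀] {Fb : IntermediateField k Ω}
  [IsFunctionField k Fb] {q : ℕ} {S : Sheet π FC Fb F₀ q} {N : S.Nodes} {F : Type} [Field F]
  [Algebra L F] [Algebra F₀ F] [IsScalarTower L F₀ F] [IsFunctionField L F]

theorem poles_pow_coord {x f : Fb} {a b : ℕ} :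
    f ∈ riemannRochSpace ((a : ℤ) • poleDiv k (x ^ b)) ↔
      f ∈ riemannRochSpace (((b * a : ℕ) : ℤ) • poleDiv k x) := by
  rw [mem_rrSpace, mem_rrSpace]
  refine forall_congr' fun v => ?_
  rw [Finsupp.smul_apply, Finsupp.smul_apply, smul_eq_mul, smul_eq_mul, poleDiv_apply,
    poleDiv_apply, ord_pow, show max (-((b : ℤ) * v.ord x)) 0 = (b : ℤ) * max (-v.ord x) 0 by
      rw [mul_max_of_nonneg _ _ (Int.natCast_nonneg b), mul_zero, mul_neg]]
  push_cast
  rw [mul_assoc, mul_left_comm]

namespace Cover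

variable (C : Cover S N F)

instance instFunctionFieldResField : IsFunctionField k C.resField := C.isFunctionField_resField

theorem theta_pow : C.theta ^ C.m = algebraMap Fb C.resField (C.e ^ C.m / C.ub) := by
  rw [theta, div_pow, C.gen_pow, ← map_pow, ← map_div₀]

/-- The basis of powers of the second coordinate. -/
def basis₂ : Module.Basis (Fin C.m) Fb C.resField :=
  haveI : Nonempty (Fin C.m) := ⟨⟨0, C.pos⟩⟩
  basisOfLinearIndependentOfCardEqFinrank (b := fun i : Fin C.m => C.theta ^ (i : ℕ))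
    (Fintype.linearIndependent_iff.2 fun g hg => congrFun (C.indep_theta g (by
      simpa only [wMap_apply, Algebra.smul_def] using hg)))
    (by rw [Fintype.card_fin, Module.finrank_eq_card_basis C.basis, Fintype.card_fin])

theorem basis₂_apply (i : Fin C.m) : C.basis₂ i = C.theta ^ (i : ℕ) := by simp [basis₂]

/-- The radical basis of the residues for the second sheet. -/
def radGen₂ : Rad.Gen Fb C.resField := ⟨C.m, C.pos, C.theta, C.e ^ C.m / C.ub,
  div_ne_zero (pow_ne_zero _ C.e_ne) C.ub_ne, C.theta_pow, C.basis₂, C.basis₂_apply⟩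

theorem exists_coord₂ (z : C.resField) :
    ∃ b : Fin C.m → Fb, z = ∑ i : Fin C.m, C.wMap C.theta i (b i) :=
  ⟨fun i => C.basis₂.repr z i, by
    conv_lhs => rw [← C.basis₂.sum_repr z]
    simp only [basis₂_apply, wMap_apply, Algebra.smul_def]⟩

theorem exists_coord₁ (z : C.resField) :
    ∃ b : Fin C.m → Fb, z = ∑ i : Fin C.m, C.wMap C.gen i (b i) := C.exists_coord z

/-- The component at exponent zero. -/
def coord0 : C.resField →ₗ[k] Fb := (C.basis.coord ⟨0, C.pos⟩).restrictScalars k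

theorem coord0_wMap_gen {i : ℕ} (hi : i < C.m) (b : Fb) :
    C.coord0 (C.wMap C.gen i b) = if i = 0 then b else 0 := by
  have h : C.wMap C.gen i b = b • C.basis ⟨i, hi⟩ := by
    rw [wMap_apply, C.basis_apply, Algebra.smul_def]
  show C.basis.coord ⟨0, C.pos⟩ (C.wMap C.gen i b) = _
  rw [h, map_smul, Module.Basis.coord_apply, Module.Basis.repr_self, Finsupp.single_apply]
  simp [Fin.ext_iff]

theorem coord0_wMap_theta {i : ℕ} (hi : i < C.m) (b : Fb) :
    C.coord0 (C.wMap C.theta i b) = if i = 0 then b else 0 := by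
  rcases Nat.eq_zero_or_pos i with rfl | hpos
  · have : C.wMap C.theta 0 b = C.wMap C.gen 0 b := by simp [wMap_apply]
    rw [this, C.coord0_wMap_gen hi, if_pos rfl]
  have h : C.wMap C.theta i b = C.wMap C.gen (C.m - i) (b * C.e ^ i / C.ub) := by
    have hg := C.gen_ne
    rw [wMap_apply, wMap_apply, theta, div_pow, map_div₀, ← C.gen_pow,
      show C.gen ^ C.m = C.gen ^ (C.m - i) * C.gen ^ i by
        rw [← pow_add, Nat.sub_add_cancel hi.le], map_mul, map_pow]
    field_simp
  rw [h, C.coord0_wMap_gen (by omega), if_neg (by omega), if_neg (by omega)]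

theorem coord0_sum {y : C.resField} (hy : ∀ i : ℕ, i < C.m → ∀ b,
    C.coord0 (C.wMap y i b) = if i = 0 then b else 0) (b : Fin C.m → Fb) :
    C.coord0 (∑ i : Fin C.m, C.wMap y i (b i)) = b ⟨0, C.pos⟩ := by
  rw [map_sum, Finset.sum_eq_single ⟨0, C.pos⟩ (fun i _ hi => ?_) (by simp)]
  · rw [hy 0 C.pos, if_pos rfl]
  · rw [hy i i.2, if_neg fun h => hi (Fin.ext h)]

theorem m_ne_L : (C.m : L) ≠ 0 := fun h => C.m_ne (by
  have : (C.m : A) = 0 := Subtype.ext (by simpa using h)
  simpa using congrArg π this)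

/-- The reductions of the Kummer parameter. -/
theorem pair_U : (S.pair (C.c ^ C.m)).Res C.U (C.ub, C.e ^ C.m / C.ub) := by
  classical
  have hx : (pairRed C.red₁ C.red₂ (C.c ^ C.m)).Res (algebraMap F₀ F C.U)
      (C.wPair 0 (C.ub, C.e ^ C.m / C.ub)) := by
    refine ⟨C.red₁_res.2 ?_, C.red₂_res.2 ?_⟩
    · have h := C.res₁.pow C.m
      rw [C.x_pow] at h
      simpa [wPair_apply, wMap_apply, coe_algebraMap, C.η_pow] using h
    · have h := C.res₂.pow C.m
      rw [_root_.smul_pow, C.x_pow] at h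
      simpa [wPair_apply, wMap_apply, coe_algebraMap, div_pow, C.η_pow] using h
  set a : Fin C.m → F₀ := Pi.single ⟨0, C.pos⟩ C.U with ha
  have hsum : ∑ i : Fin C.m, C.vMap i (a i) = algebraMap F₀ F C.U := by
    rw [Finset.sum_eq_single ⟨0, C.pos⟩ (fun i _ hi => by simp [a, hi]) (by simp)]
    simp [a, vMap_apply]
  rw [← hsum] at hx
  obtain ⟨b, hb, hg⟩ := C.pair_comp_res (pow_ne_zero _ C.c_ne) hx
  have h0 := congrFun (C.indep_pair (b - (Pi.single ⟨0, C.pos⟩ (C.ub, C.e ^ C.m / C.ub) : Fin C.m → Fb × Fb)) (by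
    simp only [Pi.sub_apply, map_sub, Finset.sum_sub_distrib, ← hg]
    rw [Finset.sum_eq_single ⟨0, C.pos⟩ (fun i _ hi => by simp [hi]) (by simp)]
    simp)) ⟨0, C.pos⟩
  have := hb ⟨0, C.pos⟩
  rw [show b ⟨0, C.pos⟩ = (C.ub, C.e ^ C.m / C.ub) by simpa [sub_eq_zero] using h0] at this
  simpa [a] using this

/-- Spaces of components upstairs. -/
abbrev spF (i M : ℕ) : Submodule L F₀ := Rad.space S.X C.U C.m i M

/-- Spaces of components on the first sheet. -/
abbrev sp₁ (i M : ℕ) : Submodule k Fb := Rad.space S.MC.xb C.ub C.m i M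

/-- Spaces of components on the second sheet. -/
abbrev sp₂ (i M : ℕ) : Submodule k Fb := Rad.space (S.MC.xb ^ q) (C.e ^ C.m / C.ub) C.m i M

theorem res_mem_space {i M : ℕ} {a : F₀} {b : Fb × Fb} (ha : a ∈ C.spF i M)
    (h : (S.pair (C.c⁻¹ ^ i)).Res a b) : b.1 ∈ C.sp₁ i M ∧ b.2 ∈ C.sp₂ i M := by
  rw [Rad.mem_space C.pos C.U_ne] at ha
  have hr := S.pair_mul (S.pair_pow h C.m) (S.pair_pow C.pair_U i)
  rw [show (C.c⁻¹ ^ i) ^ C.m * (C.c ^ C.m) ^ i = 1 by
    rw [← pow_mul, ← pow_mul, mul_comm C.m i, ← mul_pow, inv_mul_cancel₀ C.c_ne, one_pow]] at hr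
  obtain ⟨h1, h2⟩ := S.res_mem_poles ha hr
  refine ⟨(Rad.mem_space C.pos C.ub_ne).2 h1,
    (Rad.mem_space C.pos (div_ne_zero (pow_ne_zero _ C.e_ne) C.ub_ne)).2 ?_⟩
  rw [poles_pow_coord]
  exact h2

theorem degree_spF (i : ℕ) : Divisor.degree (Rad.floorDiv C.m ((i : ℤ) • divOf L C.U)) = 0 := by
  have h : (C.m : ℤ) • Rad.floorDiv C.m ((i : ℤ) • divOf L C.U) = (i : ℤ) • divOf L C.U :=
    Finsupp.ext fun v => by
      rw [Finsupp.smul_apply, Rad.floorDiv_apply, Finsupp.smul_apply, smul_eq_mul, smul_eq_mul,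
        divOf_apply, Int.mul_ediv_cancel' ((C.unramified v).mul_left _)]
  have h' := congrArg Divisor.degree h
  rw [map_zsmul, map_zsmul, degree_divOf, smul_zero, smul_eq_mul] at h'
  exact (mul_eq_zero.1 h').resolve_left (by exact_mod_cast C.pos.ne')

/-- The finite simple zeros of the branch function. -/
def zeroSet : Finset (Place k Fb) :=
  (zerosOf k C.ub).filter fun v => 0 ≤ v.ord S.MC.xb ∧ v.ord C.ub = 1

theorem mem_zeroSet {v : Place k Fb} :
    v ∈ C.zeroSet ↔ 0 ≤ v.ord S.MC.xb ∧ v.ord C.ub = 1 := by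
  simp only [zeroSet, Finset.mem_filter, mem_zerosOf]
  exact ⟨fun h => h.2, fun h => ⟨by omega, h⟩⟩

theorem n_le_card : N.n ≤ C.zeroSet.card := by
  classical
  set E : Divisor k Fb := (N.m₀ : ℤ) • poleDiv k S.MC.xb with hE
  set D : Divisor k Fb := E - ∑ v ∈ C.zeroSet, Finsupp.single v (1 : ℤ) with hD
  let Φ : riemannRochSpace E →ₗ[k] (Fin N.n → k) :=
    (LinearMap.pi N.s).comp (riemannRochSpace E).subtype
  have hsurj : LinearMap.range Φ = ⊤ := LinearMap.range_eq_top.2 fun c => by
    obtain ⟨a, ha, h⟩ := N.surj N.m₀ le_rfl c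
    exact ⟨⟨a, ha⟩, funext h⟩
  have hle : ∀ v, D v ≤ E v := fun v => by
    simp only [hD, Finsupp.sub_apply, Finsupp.finsetSum_apply, Finsupp.single_apply,
      Finset.sum_ite_eq']
    split <;> omega
  have hker : (riemannRochSpace D).comap (riemannRochSpace E).subtype ≤ LinearMap.ker Φ := by
    rintro ⟨f, hfE⟩ hf
    have hf' : f ∈ riemannRochSpace D := hf
    have hreg : f / C.ub ∈ S.regular := by
      intro v hv
      rcases eq_or_ne f 0 with rfl | hf0
      · rw [zero_div]; exact ordGE_zero _ _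
      have h := (mem_rrSpace.1 hf' v).le_ord hf0
      simp only [hD, hE, Finsupp.sub_apply, Finsupp.finsetSum_apply, Finsupp.single_apply,
        Finset.sum_ite_eq', Finsupp.smul_apply, poleDiv_apply, smul_eq_mul] at h
      rw [max_eq_right (by omega), mul_zero] at h
      refine ordGE_of_le ?_
      rw [ord_div v hf0 C.ub_ne]
      by_cases hz : v ∈ C.zeroSet
      · rw [if_pos hz] at h
        rw [(C.mem_zeroSet.1 hz).2]
        omega
      · rw [if_neg hz] at h
        have : v.ord C.ub = 0 := by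
          by_contra hne
          exact hz (C.mem_zeroSet.2 ⟨hv, C.simple v hv hne⟩)
        omega
    refine LinearMap.mem_ker.2 (funext fun i => ?_)
    show N.s i f = 0
    rw [← mul_div_cancel₀ f C.ub_ne, N.s_mul i _ _ C.ub_regular hreg, (C.node_zero i).1, zero_mul]
  have h1 := LinearMap.finrank_range_add_finrank_ker Φ
  rw [hsurj, finrank_top, Module.finrank_fin_fun] at h1
  have h2 := Submodule.finrank_mono hker
  rw [(Submodule.comapSubtypeEquivOfLe (rrSpace_mono hle)).finrank_eq] at h2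
  have h3 := finrank_rrSpace_le hle
  have h4 : Divisor.degree E - Divisor.degree D = (C.zeroSet.card : ℤ) := by
    rw [hD, map_sub, sub_sub_cancel, map_sum, Finset.sum_congr rfl fun v _ => degree_single' v 1]
    simp
  omega

end Cover

end FLTAgent.Lowering.P3
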